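/-
S14 / AN : analytic module, common definitions (no proofs of substance here).
`F` is an arbitrary number field (in `Type`).
-/
import Mathlib

set_option autoImplicit false

namespace Fermat.Agent.S14.AN

open NumberField IsDedekindDomain NumberField.mixedEmbedding NumberField.InfinitePlace
  NumberField.mixedEmbedding.fundamentalCone NumberField.Units NumberField.Units.dirichletUnitTheorem
open scoped NumberField nonZeroDivisors

variable (F : Type) [Field F] [NumberField F]

/-- `N(I)^(-s)` for a nonzero ideal `I`. -/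
noncomputable def nrm (s : ℝ) (I : (Ideal (𝓞 F))⁰) : ℝ :=
  (Ideal.absNorm (I : Ideal (𝓞 F)) : ℝ) ^ (-s)

/-- A height one prime, as a nonzero ideal. -/
def toIdl (v : HeightOneSpectrum (𝓞 F)) : (Ideal (𝓞 F))⁰ :=
  ⟨v.asIdeal, mem_nonZeroDivisors_iff_ne_zero.mpr v.ne_bot⟩

/-- `N(v)^(-s)` for a prime `v`. -/
noncomputable def pnrm (s : ℝ) (v : HeightOneSpectrum (𝓞 F)) : ℝ := nrm F s (toIdl F v)

/-- The Dedekind zeta function at a real `s`, as a sum over the nonzero ideals. -/
noncomputable def zetaR (s : ℝ) : ℝ := ∑' I : (Ideal (𝓞 F))⁰, nrm F s I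

/-- The value of a class group character at a nonzero ideal. -/
noncomputable def chr (ψ : ClassGroup (𝓞 F) →* ℂˣ) (I : (Ideal (𝓞 F))⁰) : ℂ :=
  ((ψ (ClassGroup.mk0 I) : ℂˣ) : ℂ)

/-- The `L`-function of a class group character at a real `s`, as a sum over the nonzero ideals. -/
noncomputable def Lfun (ψ : ClassGroup (𝓞 F) →* ℂˣ) (s : ℝ) : ℂ :=
  ∑' I : (Ideal (𝓞 F))⁰, chr F ψ I * (nrm F s I : ℂ)

/-- The Dirichlet coefficients of `Lfun`. -/
noncomputable def coeff (ψ : ClassGroup (𝓞 F) →* ℂˣ) (n : ℕ) : ℂ :=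
  ∑' I : {I : (Ideal (𝓞 F))⁰ // Ideal.absNorm (I : Ideal (𝓞 F)) = n}, chr F ψ I.1

/-- The number of nonzero ideals of norm `≤ x` in the class `C`. -/
noncomputable def cnt (C : ClassGroup (𝓞 F)) (x : ℝ) : ℕ :=
  Nat.card {I : (Ideal (𝓞 F))⁰ // (Ideal.absNorm (I : Ideal (𝓞 F)) : ℝ) ≤ x ∧ ClassGroup.mk0 I = C}

/-- The density of ideals in any ideal class. -/
noncomputable def kap : ℝ :=
  (2 ^ nrRealPlaces F * (2 * Real.pi) ^ nrComplexPlaces F * regulator F) /
    (torsionOrder F * Real.sqrt |discr F|)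

/-- The exponent of the error term: `1 - 1/(n+1)`, `n = [F:ℚ]`. -/
noncomputable def expo : ℝ := 1 - 1 / ((Module.finrank ℚ F : ℝ) + 1)

open scoped Classical in
/-- Parameter box: `a₁ < x w₀ ≤ a`, `α ≤ x w < β` for `w ≠ w₀`. -/
noncomputable def shellParam (a₁ a α β : ℝ) : Set (realSpace F) :=
  Set.univ.pi fun w ↦ if w = w₀ then Set.Ioc a₁ a else Set.Ico α β

/-- The shell `{x : exp a₁ < N(x)^(1/n) ≤ exp a, unit coordinates of x in [α,β)}`. -/
noncomputable def shell (a₁ a α β : ℝ) : Set (mixedSpace F) :=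
  normAtAllPlaces ⁻¹' (expMapBasis '' shellParam F a₁ a α β)

/-- The volume of `normLeOne F`. -/
noncomputable def volC : ℝ :=
  2 ^ nrRealPlaces F * Real.pi ^ nrComplexPlaces F * regulator F

/-- The part of the fundamental cone of norm `≤ c`. -/
noncomputable def coneLe (c : ℝ) : Set (mixedSpace F) :=
  {x | x ∈ fundamentalCone F ∧ mixedEmbedding.norm x ≤ c}

end Fermat.Agent.S14.AN
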