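import Mathlib

/-! # S14/AN: the Dedekind zeta function as a real sum over nonzero ideals -/

set_option autoImplicit false

namespace Fermat.Agent.S14

open NumberField Filter Topology
open scoped NumberField nonZeroDivisors

noncomputable def zetaR (F : Type) [Field F] [NumberField F] (s : ℝ) : ℝ :=
  ∑' I : (Ideal (𝓞 F))⁰, ((Ideal.absNorm (I : Ideal (𝓞 F)) : ℝ)) ^ (-s)

namespace Zeta

variable (F : Type) [Field F] [NumberField F]

/-- number of ideals of norm `n` -/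
noncomputable def cnt (n : ℕ) : ℝ := (Nat.card {I : Ideal (𝓞 F) // Ideal.absNorm I = n} : ℝ)

theorem tendsto_cnt :
    Tendsto (fun n : ℕ ↦ (∑ k ∈ Finset.Icc 1 n, cnt F k) / (n : ℝ)) atTop
      (𝓝 (dedekindZeta_residue F)) := by
  refine ((Ideal.tendsto_norm_le_div_atTop₀ F).comp tendsto_natCast_atTop_atTop).congr fun n ↦ ?_
  simp only [Function.comp_apply, Nat.cast_le, cnt, ← Nat.cast_sum]
  congr
  rw [← add_left_inj 1, ← Ideal.card_norm_le_eq_card_norm_le_add_one,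
    show Finset.Icc 1 n = Finset.Ioc 0 n from Finset.Icc_succ_left_eq_Ioc _ _,
    show 1 = Nat.card {I : Ideal (𝓞 F) // Ideal.absNorm I = 0} by simp [Ideal.absNorm_eq_zero_iff],
    Finset.sum_Ioc_add_eq_sum_Icc (n.zero_le),
    ← Finset.card_preimage_eq_sum_card_image_eq (fun k _ ↦ Ideal.finite_setOfPred_absNorm_eq k)]
  simp [Set.coe_eq_subtype]

theorem lseriesSummable (s : ℝ) (hs : 1 < s) :
    LSeriesSummable (fun n ↦ ((cnt F n : ℝ) : ℂ)) (s : ℂ) := by
  refine LSeriesSummable_of_sum_norm_bigO_and_nonneg ?_ (fun n => Nat.cast_nonneg _)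
    zero_le_one (by simpa using hs)
  exact Asymptotics.isBigO_atTop_natCast_rpow_of_tendsto_div_rpow (by simpa using tendsto_cnt F)

/-- the real term of the L-series -/
noncomputable def rterm (s : ℝ) (n : ℕ) : ℝ := if n = 0 then 0 else cnt F n * (n : ℝ) ^ (-s)

theorem term_eq (s : ℝ) (n : ℕ) :
    LSeries.term (fun n ↦ ((cnt F n : ℝ) : ℂ)) (s : ℂ) n = ((rterm F s n : ℝ) : ℂ) := by
  unfold rterm
  rw [LSeries.term_def]
  split_ifs with h
  · simp
  · have hn : (0 : ℝ) < n := by exact_mod_cast Nat.pos_of_ne_zero h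
    rw [Complex.ofReal_mul, Complex.ofReal_cpow hn.le, Complex.ofReal_neg, Complex.cpow_neg,
      div_eq_mul_inv]
    simp

theorem summable_rterm (s : ℝ) (hs : 1 < s) : Summable (rterm F s) := by
  have h := lseriesSummable F s hs
  unfold LSeriesSummable at h
  have h2 : Summable fun n => ((rterm F s n : ℝ) : ℂ) := by
    refine h.congr fun n => ?_
    rw [term_eq]
  exact Complex.summable_ofReal.mp h2

/-- fibres of the norm on nonzero ideals -/
noncomputable def fibEquiv (n : ℕ) (hn : n ≠ 0) :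
    {I : (Ideal (𝓞 F))⁰ // Ideal.absNorm (I : Ideal (𝓞 F)) = n} ≃
      {I : Ideal (𝓞 F) // Ideal.absNorm I = n} where
  toFun I := ⟨I.1.1, I.2⟩
  invFun I := ⟨⟨I.1, by
    rw [mem_nonZeroDivisors_iff_ne_zero]
    intro h
    apply hn
    rw [← I.2, h]
    simp⟩, I.2⟩
  left_inv I := rfl
  right_inv I := rfl

instance finite_fib (n : ℕ) :
    Finite {I : (Ideal (𝓞 F))⁰ // Ideal.absNorm (I : Ideal (𝓞 F)) = n} := by
  by_cases hn : n = 0
  · subst hn
    have : IsEmpty {I : (Ideal (𝓞 F))⁰ // Ideal.absNorm (I : Ideal (𝓞 F)) = 0} := by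
      constructor
      rintro ⟨I, hI⟩
      rw [Ideal.absNorm_eq_zero_iff] at hI
      exact (mem_nonZeroDivisors_iff_ne_zero.mp I.2) hI
    infer_instance
  · have : Finite {I : Ideal (𝓞 F) // Ideal.absNorm I = n} :=
      Ideal.finite_setOfPred_absNorm_eq n
    exact Finite.of_equiv _ (fibEquiv F n hn).symm

theorem tsum_fib (s : ℝ) (n : ℕ) :
    ∑' I : {I : (Ideal (𝓞 F))⁰ // Ideal.absNorm (I : Ideal (𝓞 F)) = n},
      ((Ideal.absNorm (I.1 : Ideal (𝓞 F)) : ℝ)) ^ (-s) = rterm F s n := by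
  have h1 : ∀ I : {I : (Ideal (𝓞 F))⁰ // Ideal.absNorm (I : Ideal (𝓞 F)) = n},
      ((Ideal.absNorm (I.1 : Ideal (𝓞 F)) : ℝ)) ^ (-s) = (n : ℝ) ^ (-s) := fun I => by rw [I.2]
  simp_rw [h1]
  rw [tsum_const]
  unfold rterm
  split_ifs with hn
  · subst hn
    have : IsEmpty {I : (Ideal (𝓞 F))⁰ // Ideal.absNorm (I : Ideal (𝓞 F)) = 0} := by
      constructor
      rintro ⟨I, hI⟩
      rw [Ideal.absNorm_eq_zero_iff] at hI
      exact (mem_nonZeroDivisors_iff_ne_zero.mp I.2) hI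
    simp
  · rw [Nat.card_congr (fibEquiv F n hn), nsmul_eq_mul]
    rfl

theorem summable_sigma (s : ℝ) (hs : 1 < s) :
    Summable fun x : (Σ n : ℕ, {I : (Ideal (𝓞 F))⁰ // Ideal.absNorm (I : Ideal (𝓞 F)) = n}) =>
      ((Ideal.absNorm (x.2.1 : Ideal (𝓞 F)) : ℝ)) ^ (-s) := by
  rw [summable_sigma_of_nonneg (fun x => by positivity)]
  refine ⟨fun n => Summable.of_finite, ?_⟩
  refine (summable_rterm F s hs).congr fun n => ?_
  exact (tsum_fib F s n).symm

end Zeta

open Zeta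

theorem summable_absNorm_rpow (F : Type) [Field F] [NumberField F] (s : ℝ) (hs : 1 < s) :
    Summable fun I : (Ideal (𝓞 F))⁰ => ((Ideal.absNorm (I : Ideal (𝓞 F)) : ℝ)) ^ (-s) :=
  ((Equiv.sigmaFiberEquiv
    (fun I : (Ideal (𝓞 F))⁰ => Ideal.absNorm (I : Ideal (𝓞 F)))).summable_iff
      (f := fun I : (Ideal (𝓞 F))⁰ =>
        ((Ideal.absNorm (I : Ideal (𝓞 F)) : ℝ)) ^ (-s))).mp (summable_sigma F s hs)

theorem Zeta.zetaR_eq_tsum_rterm (F : Type) [Field F] [NumberField F] (s : ℝ) (hs : 1 < s) :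
    zetaR F s = ∑' n, rterm F s n := by
  unfold zetaR
  rw [← (Equiv.sigmaFiberEquiv
    (fun I : (Ideal (𝓞 F))⁰ => Ideal.absNorm (I : Ideal (𝓞 F)))).tsum_eq
      (fun I : (Ideal (𝓞 F))⁰ => ((Ideal.absNorm (I : Ideal (𝓞 F)) : ℝ)) ^ (-s))]
  have h := (summable_sigma F s hs).tsum_sigma
  refine Eq.trans h ?_
  exact tsum_congr fun n => tsum_fib F s n

theorem zetaR_eq_dedekindZeta (F : Type) [Field F] [NumberField F] (s : ℝ) (hs : 1 < s) :
    ((zetaR F s : ℝ) : ℂ) = NumberField.dedekindZeta F (s : ℂ) := by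
  rw [zetaR_eq_tsum_rterm F s hs, Complex.ofReal_tsum]
  unfold NumberField.dedekindZeta LSeries
  refine tsum_congr fun n => ?_
  rw [← term_eq]
  simp [cnt]

theorem Zeta.one_le_zetaR (F : Type) [Field F] [NumberField F] (s : ℝ) (hs : 1 < s) :
    1 ≤ zetaR F s := by
  have h := (summable_absNorm_rpow F s hs).le_tsum
    (⟨⊤, by rw [mem_nonZeroDivisors_iff_ne_zero]; exact top_ne_bot⟩ : (Ideal (𝓞 F))⁰)
    (fun I _ => by positivity)
  unfold zetaR
  simpa using h

theorem Zeta.zetaR_antitone (F : Type) [Field F] [NumberField F] (s t : ℝ) (hs : 1 < s)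
    (hst : s ≤ t) : zetaR F t ≤ zetaR F s := by
  refine (summable_absNorm_rpow F t (hs.trans_le hst)).tsum_le_tsum (fun I => ?_)
    (summable_absNorm_rpow F s hs)
  have h1 : (1 : ℝ) ≤ (Ideal.absNorm (I : Ideal (𝓞 F)) : ℝ) := by
    have : Ideal.absNorm (I : Ideal (𝓞 F)) ≠ 0 := by
      rw [Ne, Ideal.absNorm_eq_zero_iff]
      exact mem_nonZeroDivisors_iff_ne_zero.mp I.2
    exact_mod_cast Nat.one_le_iff_ne_zero.mpr this
  exact Real.rpow_le_rpow_of_exponent_le h1 (by linarith)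

theorem Zeta.tendsto_zetaR (F : Type) [Field F] [NumberField F] :
    Tendsto (fun s : ℝ => (s - 1) * zetaR F s) (𝓝[>] 1) (𝓝 (dedekindZeta_residue F)) := by
  have h := tendsto_sub_one_mul_dedekindZeta_nhdsGT F
  have h2 := (Complex.continuous_re.tendsto _).comp h
  simp only [Complex.ofReal_re] at h2
  refine h2.congr' ?_
  filter_upwards [self_mem_nhdsWithin] with s hs
  simp only [Function.comp_apply]
  rw [← zetaR_eq_dedekindZeta F s hs, ← Complex.ofReal_one, ← Complex.ofReal_sub,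
    ← Complex.ofReal_mul, Complex.ofReal_re]

theorem zetaR_bounds (F : Type) [Field F] [NumberField F] :
    ∃ c c' : ℝ, 0 < c ∧ 0 < c' ∧ ∀ s : ℝ, 1 < s → s ≤ 2 →
      c / (s - 1) ≤ zetaR F s ∧ zetaR F s ≤ c' / (s - 1) := by
  set κ := dedekindZeta_residue F with hκ
  have hκpos : 0 < κ := dedekindZeta_residue_pos F
  have h := tendsto_zetaR F
  have hev : ∀ᶠ s in 𝓝[>] (1 : ℝ), (s - 1) * zetaR F s ∈ Set.Ioo (κ / 2) (2 * κ) :=
    h.eventually (Ioo_mem_nhds (by linarith) (by linarith))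
  rw [eventually_nhdsWithin_iff, Metric.eventually_nhds_iff] at hev
  obtain ⟨δ, hδ, hball⟩ := hev
  have hz : 1 ≤ zetaR F (1 + δ / 2) := one_le_zetaR F _ (by linarith)
  refine ⟨min (κ / 2) (δ / 2), max (2 * κ) (zetaR F (1 + δ / 2)), by positivity,
    by positivity, fun s hs hs2 => ?_⟩
  have hs0 : 0 < s - 1 := by linarith
  rw [div_le_iff₀ hs0, le_div_iff₀ hs0]
  by_cases hsd : s < 1 + δ / 2
  · have hmem := hball (y := s) (by
      rw [Real.dist_eq, abs_of_pos hs0]; linarith) hs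
    constructor
    · calc min (κ / 2) (δ / 2) ≤ κ / 2 := min_le_left _ _
        _ ≤ (s - 1) * zetaR F s := hmem.1.le
        _ = zetaR F s * (s - 1) := mul_comm _ _
    · calc zetaR F s * (s - 1) = (s - 1) * zetaR F s := mul_comm _ _
        _ ≤ 2 * κ := hmem.2.le
        _ ≤ _ := le_max_left _ _
  · push Not at hsd
    have h1 := one_le_zetaR F s hs
    have h2 := zetaR_antitone F (1 + δ / 2) s (by linarith) hsd
    constructor
    · calc min (κ / 2) (δ / 2) ≤ δ / 2 := min_le_right _ _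
        _ ≤ s - 1 := by linarith
        _ = 1 * (s - 1) := (one_mul _).symm
        _ ≤ zetaR F s * (s - 1) := by gcongr
    · calc zetaR F s * (s - 1) ≤ zetaR F (1 + δ / 2) * 1 := by
            gcongr
            linarith
        _ = zetaR F (1 + δ / 2) := mul_one _
        _ ≤ _ := le_max_right _ _

end Fermat.Agent.S14
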