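import Fermat.Agent.S14.AN.Defs
import Fermat.Agent.S14.AN.Zeta

set_option autoImplicit false

namespace Fermat.Agent.S14.AN

open NumberField IsDedekindDomain Filter Topology
open scoped NumberField nonZeroDivisors

variable (F : Type) [Field F] [NumberField F]

theorem zetaR_eq : zetaR F = Fermat.Agent.S14.zetaR F := rfl

theorem summable_nrm {s : ℝ} (hs : 1 < s) : Summable (nrm F s) :=
  Fermat.Agent.S14.summable_absNorm_rpow F s hs

theorem zetaR_eq_dedekindZeta {s : ℝ} (hs : 1 < s) :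
    ((zetaR F s : ℝ) : ℂ) = dedekindZeta F (s : ℂ) :=
  Fermat.Agent.S14.zetaR_eq_dedekindZeta F s hs

theorem zetaR_bounds : ∃ c C : ℝ, 0 < c ∧ 0 < C ∧
    ∀ᶠ s in 𝓝[>] (1 : ℝ), c / (s - 1) ≤ zetaR F s ∧ zetaR F s ≤ C / (s - 1) := by
  obtain ⟨c, C, hc, hC, h⟩ := Fermat.Agent.S14.zetaR_bounds F
  refine ⟨c, C, hc, hC, ?_⟩
  have : Set.Ioo (1 : ℝ) 2 ∈ 𝓝[>] (1 : ℝ) := Ioo_mem_nhdsGT (by norm_num)
  filter_upwards [this] with s hs
  exact h s hs.1 hs.2.le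

end Fermat.Agent.S14.AN
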