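import Fermat.Agent.S14.AN.Sieve

set_option autoImplicit false

namespace Fermat.Agent.S14.AN

open NumberField IsDedekindDomain NumberField.mixedEmbedding NumberField.InfinitePlace
  NumberField.mixedEmbedding.fundamentalCone NumberField.Units NumberField.Units.dirichletUnitTheorem
  Filter Topology MeasureTheory
open scoped NumberField nonZeroDivisors

variable (F : Type) [Field F] [NumberField F]

namespace Euler

theorem two_le_absNorm (v : HeightOneSpectrum (𝓞 F)) : 2 ≤ Ideal.absNorm v.asIdeal := by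
  have h0 : Ideal.absNorm v.asIdeal ≠ 0 := by
    rw [Ne, Ideal.absNorm_eq_zero_iff]
    exact v.ne_bot
  have h1 : Ideal.absNorm v.asIdeal ≠ 1 := by
    rw [Ne, Ideal.absNorm_eq_one_iff]
    exact v.isPrime.ne_top
  omega

theorem pnrm_pos (s : ℝ) (v : HeightOneSpectrum (𝓞 F)) : 0 < pnrm F s v := by
  have h := two_le_absNorm F v
  unfold pnrm nrm toIdl
  apply Real.rpow_pos_of_pos
  have : 0 < Ideal.absNorm v.asIdeal := by omega
  exact_mod_cast this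

theorem pnrm_le_half {s : ℝ} (hs : 1 < s) (v : HeightOneSpectrum (𝓞 F)) :
    pnrm F s v ≤ 1 / 2 := by
  have h := two_le_absNorm F v
  have h2 : (2 : ℝ) ≤ (Ideal.absNorm v.asIdeal : ℝ) := by exact_mod_cast h
  unfold pnrm nrm toIdl
  calc ((Ideal.absNorm v.asIdeal : ℝ)) ^ (-s) ≤ (2 : ℝ) ^ (-s) :=
        Real.rpow_le_rpow_of_nonpos (by norm_num) h2 (by linarith)
    _ ≤ (2 : ℝ) ^ (-1 : ℝ) := Real.rpow_le_rpow_of_exponent_le (by norm_num) (by linarith)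
    _ = 1 / 2 := by rw [Real.rpow_neg_one]; norm_num

theorem exp_neg_le_one_sub {x : ℝ} (h0 : 0 ≤ x) (h1 : x ≤ 1 / 2) :
    Real.exp (-(x + x ^ 2)) ≤ 1 - x := by
  have hy : 0 ≤ x + x ^ 2 := by positivity
  have h := Real.quadratic_le_exp_of_nonneg hy
  have h2 : 1 ≤ (1 - x) * (1 + (x + x ^ 2) + (x + x ^ 2) ^ 2 / 2) := by
    have e : (1 - x) * (1 + (x + x ^ 2) + (x + x ^ 2) ^ 2 / 2) - 1
        = x ^ 2 * (1 - x - x ^ 2 - x ^ 3) / 2 := by ring
    have h3 : 0 ≤ 1 - x - x ^ 2 - x ^ 3 := by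
      have hx2 : x ^ 2 ≤ 1 / 4 := by nlinarith
      have hx3 : x ^ 3 ≤ 1 / 8 := by nlinarith
      linarith
    have : 0 ≤ x ^ 2 * (1 - x - x ^ 2 - x ^ 3) / 2 := by positivity
    linarith
  have h3 : 1 ≤ (1 - x) * Real.exp (x + x ^ 2) :=
    h2.trans (mul_le_mul_of_nonneg_left h (by linarith))
  rw [Real.exp_neg]
  have hpos := Real.exp_pos (x + x ^ 2)
  rw [inv_le_iff_one_le_mul₀ hpos]
  exact h3

theorem norm_one_sub_le (z : ℂ) : ‖1 - z‖ ≤ Real.exp (-(z.re - ‖z‖ ^ 2)) := by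
  have h1 : ‖1 - z‖ ^ 2 = 1 - 2 * z.re + ‖z‖ ^ 2 := by
    rw [Complex.sq_norm, Complex.sq_norm, Complex.normSq_apply, Complex.normSq_apply]
    simp only [Complex.sub_re, Complex.one_re, Complex.sub_im, Complex.one_im]
    ring
  have h2 : ‖1 - z‖ ^ 2 ≤ Real.exp (-(z.re - ‖z‖ ^ 2)) ^ 2 := by
    rw [h1, ← Real.exp_nat_mul]
    have := Real.add_one_le_exp (((2 : ℕ) : ℝ) * (-(z.re - ‖z‖ ^ 2)))
    have h3 : 0 ≤ ‖z‖ ^ 2 := by positivity
    push_cast at this ⊢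
    linarith
  exact (pow_le_pow_iff_left₀ (norm_nonneg _) (Real.exp_pos _).le (by norm_num)).mp h2

theorem norm_chr (ψ : ClassGroup (𝓞 F) →* ℂˣ) (I : (Ideal (𝓞 F))⁰) : ‖chr F ψ I‖ = 1 := by
  have h : (ψ (ClassGroup.mk0 I)) ^ Fintype.card (ClassGroup (𝓞 F)) = 1 := by
    rw [← map_pow, pow_card_eq_one, map_one]
  have h' : (chr F ψ I) ^ Fintype.card (ClassGroup (𝓞 F)) = 1 := by
    unfold chr
    rw [← Units.val_pow_eq_pow_val, h, Units.val_one]
  exact Complex.norm_eq_one_of_pow_eq_one h' Fintype.card_ne_zero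

/-- `ψ(I) N(I)^(-s)` as a monoid homomorphism. -/
noncomputable def chrHom (ψ : ClassGroup (𝓞 F) →* ℂˣ) (s : ℝ) : (Ideal (𝓞 F))⁰ →* ℂ where
  toFun I := chr F ψ I * (nrm F s I : ℂ)
  map_one' := by
    have h : nrm F s 1 = 1 := map_one (Sieve.nrmHom F s)
    simp [chr, h]
  map_mul' I J := by
    have h : nrm F s (I * J) = nrm F s I * nrm F s J := map_mul (Sieve.nrmHom F s) I J
    simp only [chr, h, map_mul, Units.val_mul, Complex.ofReal_mul]
    ring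

theorem nrm_nonneg (s : ℝ) (I : (Ideal (𝓞 F))⁰) : 0 ≤ nrm F s I :=
  Real.rpow_nonneg (Nat.cast_nonneg _) _

theorem norm_chrHom (ψ : ClassGroup (𝓞 F) →* ℂˣ) (s : ℝ) (I : (Ideal (𝓞 F))⁰) :
    ‖chrHom F ψ s I‖ = nrm F s I := by
  change ‖chr F ψ I * (nrm F s I : ℂ)‖ = _
  rw [norm_mul, norm_chr, one_mul, Complex.norm_real, Real.norm_of_nonneg (nrm_nonneg F s I)]

theorem summable_norm_chrHom (ψ : ClassGroup (𝓞 F) →* ℂˣ) {s : ℝ} (hs : 1 < s) :
    Summable fun I ↦ ‖chrHom F ψ s I‖ :=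
  (summable_nrm F hs).congr fun I ↦ (norm_chrHom F ψ s I).symm

theorem zetaR_nonneg (s : ℝ) : 0 ≤ zetaR F s := tsum_nonneg (nrm_nonneg F s)

theorem Lfun_one (s : ℝ) : Lfun F 1 s = (zetaR F s : ℂ) := by
  unfold Lfun zetaR
  rw [Complex.ofReal_tsum]
  refine tsum_congr fun I ↦ ?_
  simp [chr]

end Euler

open Euler

theorem exp_sum_le_zetaR {s : ℝ} (hs : 1 < s) (T : Finset (HeightOneSpectrum (𝓞 F))) :
    Real.exp (∑ v ∈ T, pnrm F s v) ≤ zetaR F s := by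
  have h := sieve_real_ge F hs T
  have h1 : ∏ v ∈ T, (1 - pnrm F s v) ≤ Real.exp (-∑ v ∈ T, pnrm F s v) := by
    rw [← Finset.sum_neg_distrib, Real.exp_sum]
    refine Finset.prod_le_prod (fun v _ ↦ ?_) (fun v _ ↦ ?_)
    · have := pnrm_le_half F hs v
      linarith
    · have := Real.add_one_le_exp (-pnrm F s v)
      linarith
  have h2 : 1 ≤ Real.exp (-∑ v ∈ T, pnrm F s v) * zetaR F s :=
    h.trans (mul_le_mul_of_nonneg_right h1 (zetaR_nonneg F s))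
  rw [Real.exp_neg] at h2
  have hpos := Real.exp_pos (∑ v ∈ T, pnrm F s v)
  rwa [inv_mul_eq_div, le_div_iff₀ hpos, one_mul] at h2

theorem exp_le_norm_Lfun (ψ : ClassGroup (𝓞 F) →* ℂˣ) {s : ℝ} (hs : 1 < s) :
    ∀ᶠ T in (atTop : Filter (Finset (HeightOneSpectrum (𝓞 F)))),
      Real.exp (∑ v ∈ T, ((chr F ψ (toIdl F v)).re * pnrm F s v - pnrm F s v ^ 2))
        ≤ 2 * ‖Lfun F ψ s‖ := by
  have h := (sieve_tendsto F (chrHom F ψ s) (summable_norm_chrHom F ψ hs)).norm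
  rw [norm_one] at h
  have hev := h.eventually (lt_mem_nhds (show (1 / 2 : ℝ) < 1 by norm_num))
  filter_upwards [hev] with T hT
  have hL : ∑' I, chrHom F ψ s I = Lfun F ψ s := rfl
  rw [hL, norm_mul, norm_prod] at hT
  have h1 : ∏ v ∈ T, ‖1 - chrHom F ψ s (toIdl F v)‖ ≤
      Real.exp (-∑ v ∈ T, ((chr F ψ (toIdl F v)).re * pnrm F s v - pnrm F s v ^ 2)) := by
    rw [← Finset.sum_neg_distrib, Real.exp_sum]
    refine Finset.prod_le_prod (fun v _ ↦ norm_nonneg _) (fun v _ ↦ ?_)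
    have h2 := norm_one_sub_le (chrHom F ψ s (toIdl F v))
    rw [norm_chrHom] at h2
    have h3 : (chrHom F ψ s (toIdl F v)).re = (chr F ψ (toIdl F v)).re * pnrm F s v := by
      change (chr F ψ (toIdl F v) * (nrm F s (toIdl F v) : ℂ)).re = _
      rw [Complex.re_mul_ofReal]
      rfl
    rw [h3] at h2
    exact h2
  have h2 : 1 / 2 < Real.exp (-∑ v ∈ T, ((chr F ψ (toIdl F v)).re * pnrm F s v - pnrm F s v ^ 2))
      * ‖Lfun F ψ s‖ := hT.trans_le (mul_le_mul_of_nonneg_right h1 (norm_nonneg _))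
  rw [Real.exp_neg] at h2
  have hpos := Real.exp_pos (∑ v ∈ T, ((chr F ψ (toIdl F v)).re * pnrm F s v - pnrm F s v ^ 2))
  rw [inv_mul_eq_div, lt_div_iff₀ hpos] at h2
  linarith

theorem zetaR_le_exp {s : ℝ} (hs : 1 < s) :
    ∀ᶠ T in (atTop : Filter (Finset (HeightOneSpectrum (𝓞 F)))),
      zetaR F s ≤ 2 * Real.exp (∑ v ∈ T, (pnrm F s v + pnrm F s v ^ 2)) := by
  have h := (sieve_tendsto F (chrHom F 1 s) (summable_norm_chrHom F 1 hs)).norm
  rw [norm_one] at h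
  have hev := h.eventually (gt_mem_nhds (show (1 : ℝ) < 2 by norm_num))
  filter_upwards [hev] with T hT
  have hL : ∑' I, chrHom F 1 s I = (zetaR F s : ℂ) := Lfun_one F s
  rw [hL, norm_mul, norm_prod, Complex.norm_real, Real.norm_of_nonneg (zetaR_nonneg F s)] at hT
  have h1 : Real.exp (-∑ v ∈ T, (pnrm F s v + pnrm F s v ^ 2)) ≤
      ∏ v ∈ T, ‖1 - chrHom F 1 s (toIdl F v)‖ := by
    rw [← Finset.sum_neg_distrib, Real.exp_sum]
    refine Finset.prod_le_prod (fun v _ ↦ (Real.exp_pos _).le) (fun v _ ↦ ?_)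
    have h3 : (1 : ℂ) - chrHom F 1 s (toIdl F v) = ((1 - pnrm F s v : ℝ) : ℂ) := by
      change (1 : ℂ) - chr F 1 (toIdl F v) * (nrm F s (toIdl F v) : ℂ) = _
      simp [chr, pnrm]
    have hh := pnrm_le_half F hs v
    rw [h3, Complex.norm_real, Real.norm_of_nonneg (by linarith)]
    exact exp_neg_le_one_sub (pnrm_pos F s v).le hh
  have h2 : Real.exp (-∑ v ∈ T, (pnrm F s v + pnrm F s v ^ 2)) * zetaR F s < 2 :=
    (mul_le_mul_of_nonneg_right h1 (zetaR_nonneg F s)).trans_lt hT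
  rw [Real.exp_neg] at h2
  have hpos := Real.exp_pos (∑ v ∈ T, (pnrm F s v + pnrm F s v ^ 2))
  rw [inv_mul_eq_div, div_lt_iff₀ hpos] at h2
  exact h2.le

end Fermat.Agent.S14.AN
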