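import Fermat.Agent.S14.AN.Basic

set_option autoImplicit false

namespace Fermat.Agent.S14.AN

open NumberField IsDedekindDomain NumberField.mixedEmbedding NumberField.InfinitePlace
  NumberField.mixedEmbedding.fundamentalCone NumberField.Units NumberField.Units.dirichletUnitTheorem
  Filter Topology MeasureTheory
open scoped NumberField nonZeroDivisors

variable (F : Type) [Field F] [NumberField F]

namespace PrimeSums

theorem toIdl_injective : Function.Injective (toIdl F) := by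
  intro v w h
  have : v.asIdeal = w.asIdeal := congrArg Subtype.val h
  exact HeightOneSpectrum.ext this

theorem one_le_absNorm (v : HeightOneSpectrum (𝓞 F)) : (1 : ℝ) ≤ (Ideal.absNorm v.asIdeal : ℝ) := by
  have h : Ideal.absNorm v.asIdeal ≠ 0 := by
    rw [Ne, Ideal.absNorm_eq_zero_iff]
    exact v.ne_bot
  exact_mod_cast Nat.one_le_iff_ne_zero.mpr h

theorem pnrm_eq (s : ℝ) (v : HeightOneSpectrum (𝓞 F)) :
    pnrm F s v = (Ideal.absNorm v.asIdeal : ℝ) ^ (-s) := rfl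

theorem pnrm_nonneg (s : ℝ) (v : HeightOneSpectrum (𝓞 F)) : 0 ≤ pnrm F s v := by
  rw [pnrm_eq]
  positivity

theorem pnrm_le_one {s : ℝ} (hs : 1 ≤ s) (v : HeightOneSpectrum (𝓞 F)) : pnrm F s v ≤ 1 := by
  rw [pnrm_eq]
  exact Real.rpow_le_one_of_one_le_of_nonpos (one_le_absNorm F v) (by linarith)

theorem pnrm_le_inv {s : ℝ} (hs : 1 ≤ s) (v : HeightOneSpectrum (𝓞 F)) :
    pnrm F s v ≤ (Ideal.absNorm v.asIdeal : ℝ)⁻¹ := by
  rw [pnrm_eq, ← Real.rpow_neg_one]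
  exact Real.rpow_le_rpow_of_exponent_le (one_le_absNorm F v) (by linarith)

theorem nrm_nonneg (s : ℝ) (I : (Ideal (𝓞 F))⁰) : 0 ≤ nrm F s I := by
  rw [nrm]
  positivity

/-- data of the rational prime under `v` -/
theorem exists_prime_under (v : HeightOneSpectrum (𝓞 F)) :
    ∃ q n : ℕ, 0 < n ∧ ((q : ℕ) : 𝓞 F) ∈ v.asIdeal ∧ q.Prime ∧ Ideal.absNorm v.asIdeal = q ^ n := by
  have : v.asIdeal.IsMaximal := v.isMaximal
  exact Ideal.exists_prime_and_absNorm_eq_pow v.asIdeal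

set_option linter.deprecated false in
theorem card_filter_le (q : ℕ) (hq : q.Prime) (T : Finset (HeightOneSpectrum (𝓞 F)))
    (hT : ∀ v ∈ T, ((q : ℕ) : 𝓞 F) ∈ v.asIdeal) : T.card ≤ Module.finrank ℚ F := by
  classical
  have hq' : Prime (q : ℤ) := Nat.prime_iff_prime_int.mp hq
  have hp0 : Ideal.span {(q : ℤ)} ≠ ⊥ := by
    simpa using hq.ne_zero
  have hprime : (Ideal.span {(q : ℤ)}).IsPrime :=
    (Ideal.span_singleton_prime hq'.ne_zero).mpr hq'
  have : (Ideal.span {(q : ℤ)}).IsMaximal := hprime.isMaximal hp0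
  refine le_trans ?_ (Ideal.card_primesOverFinset_le_finrank (𝓞 F) ℚ F hp0)
  refine Finset.card_le_card_of_injOn (fun v => v.asIdeal) ?_ ?_
  · intro v hv
    rw [Finset.mem_coe, IsDedekindDomain.mem_primesOverFinset_iff hp0]
    refine ⟨v.isPrime, ⟨?_⟩⟩
    have hle : Ideal.span {(q : ℤ)} ≤ Ideal.under ℤ v.asIdeal := by
      rw [Ideal.span_singleton_le_iff_mem, Ideal.mem_comap]
      simpa using hT v hv
    have hne : Ideal.under ℤ v.asIdeal ≠ ⊤ := by
      have := v.isPrime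
      exact (Ideal.IsPrime.under ℤ v.asIdeal).ne_top
    exact Ideal.IsMaximal.eq_of_le inferInstance hne hle
  · intro v _ w _ h
    exact HeightOneSpectrum.ext h

end PrimeSums

open PrimeSums

theorem sum_pnrm_sq_le : ∃ C : ℝ, ∀ s : ℝ, 1 ≤ s → ∀ T : Finset (HeightOneSpectrum (𝓞 F)),
    ∑ v ∈ T, pnrm F s v ^ 2 ≤ C := by
  refine ⟨zetaR F 2, fun s hs T => ?_⟩
  have h1 : ∀ v ∈ T, pnrm F s v ^ 2 ≤ nrm F 2 (toIdl F v) := by
    intro v _
    have h2 : pnrm F s v ^ 2 = (Ideal.absNorm v.asIdeal : ℝ) ^ (-(2 * s)) := by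
      rw [pnrm_eq, ← Real.rpow_natCast, ← Real.rpow_mul (by positivity)]
      congr 1
      push_cast
      ring
    rw [h2]
    exact Real.rpow_le_rpow_of_exponent_le (one_le_absNorm F v) (by linarith)
  refine (Finset.sum_le_sum h1).trans ?_
  have h3 : ∑ v ∈ T, nrm F 2 (toIdl F v) = ∑ I ∈ T.map ⟨toIdl F, toIdl_injective F⟩, nrm F 2 I := by
    rw [Finset.sum_map]
    rfl
  rw [h3]
  exact (summable_nrm F (by norm_num : (1 : ℝ) < 2)).sum_le_tsum _ fun I _ => nrm_nonneg F 2 I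

theorem sum_pnrm_not_prime_le : ∃ C : ℝ, ∀ s : ℝ, 1 ≤ s →
    ∀ T : Finset (HeightOneSpectrum (𝓞 F)), (∀ v ∈ T, ¬ (Ideal.absNorm v.asIdeal).Prime) →
      ∑ v ∈ T, pnrm F s v ≤ C := by
  classical
  choose q n hn hmem hq hN using exists_prime_under F
  have hsum : Summable fun m : ℕ => ((m : ℝ) ^ 2)⁻¹ := Real.summable_nat_pow_inv.mpr (by norm_num)
  refine ⟨(Module.finrank ℚ F : ℝ) * ∑' m : ℕ, ((m : ℝ) ^ 2)⁻¹, fun s hs T hT => ?_⟩
  have h1 : ∀ v ∈ T, pnrm F s v ≤ (((q v : ℕ) : ℝ) ^ 2)⁻¹ := by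
    intro v hv
    refine (pnrm_le_inv F hs v).trans ?_
    have h2 : 2 ≤ n v := by
      by_contra hlt
      have h1n : n v = 1 := by have := hn v; omega
      apply hT v hv
      rw [hN v, h1n, pow_one]
      exact hq v
    have hq1 : (1 : ℝ) ≤ (q v : ℝ) := by exact_mod_cast (hq v).one_le
    have hq0 : (0 : ℝ) < (q v : ℝ) := by linarith
    rw [hN v]
    push_cast
    apply inv_anti₀ (by positivity)
    exact pow_le_pow_right₀ hq1 h2
  refine (Finset.sum_le_sum h1).trans ?_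
  rw [Finset.sum_comp (fun m : ℕ => ((m : ℝ) ^ 2)⁻¹) q]
  have h3 : ∀ b ∈ T.image q, (T.filter fun v => q v = b).card • (((b : ℕ) : ℝ) ^ 2)⁻¹ ≤
      (Module.finrank ℚ F : ℝ) * (((b : ℕ) : ℝ) ^ 2)⁻¹ := by
    intro b hb
    obtain ⟨v₀, _, rfl⟩ := Finset.mem_image.mp hb
    rw [nsmul_eq_mul]
    apply mul_le_mul_of_nonneg_right _ (by positivity)
    have := card_filter_le F (q v₀) (hq v₀) (T.filter fun v => q v = q v₀) (by
      intro v hv
      rw [← (Finset.mem_filter.mp hv).2]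
      exact hmem v)
    exact_mod_cast this
  refine (Finset.sum_le_sum h3).trans ?_
  rw [← Finset.mul_sum]
  apply mul_le_mul_of_nonneg_left _ (by positivity)
  exact hsum.sum_le_tsum _ fun m _ => by positivity

theorem sum_pnrm_dvd_le (x : 𝓞 F) (hx : x ≠ 0) : ∃ C : ℝ, ∀ s : ℝ, 1 ≤ s →
    ∀ T : Finset (HeightOneSpectrum (𝓞 F)), (∀ v ∈ T, x ∈ v.asIdeal) →
      ∑ v ∈ T, pnrm F s v ≤ C := by
  classical
  have hfin : {v : HeightOneSpectrum (𝓞 F) | v.asIdeal ∣ Ideal.span {x}}.Finite :=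
    Ideal.finite_factors (by simpa using hx)
  refine ⟨(hfin.toFinset.card : ℝ), fun s hs T hT => ?_⟩
  have h1 : ∑ v ∈ T, pnrm F s v ≤ ∑ _v ∈ T, (1 : ℝ) :=
    Finset.sum_le_sum fun v _ => pnrm_le_one F hs v
  refine h1.trans ?_
  rw [Finset.sum_const, nsmul_eq_mul, mul_one]
  have h2 : T ⊆ hfin.toFinset := by
    intro v hv
    rw [Set.Finite.mem_toFinset, Set.mem_ofPred_eq, Ideal.dvd_iff_le, Ideal.span_singleton_le_iff_mem]
    exact hT v hv
  exact_mod_cast Finset.card_le_card h2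

end Fermat.Agent.S14.AN
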