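import Fermat.Agent.S14.AN.Basic

set_option autoImplicit false

namespace Fermat.Agent.S14.AN

open NumberField IsDedekindDomain NumberField.mixedEmbedding NumberField.InfinitePlace
  NumberField.mixedEmbedding.fundamentalCone NumberField.Units NumberField.Units.dirichletUnitTheorem
  Filter Topology MeasureTheory
open scoped NumberField nonZeroDivisors

variable (F : Type) [Field F] [NumberField F]

namespace Sieve

/-- the nonzero ideals coprime to all the primes of `T`. -/
def cop (T : Finset (HeightOneSpectrum (𝓞 F))) : Set (Ideal (𝓞 F))⁰ :=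
  {I | ∀ v ∈ T, ¬ v.asIdeal ∣ (I : Ideal (𝓞 F))}

variable {F}

omit [NumberField F] in
theorem one_mem_cop (T : Finset (HeightOneSpectrum (𝓞 F))) : (1 : (Ideal (𝓞 F))⁰) ∈ cop F T := by
  intro v _ h
  have h1 : v.asIdeal ∣ (1 : Ideal (𝓞 F)) := h
  exact v.isPrime.ne_top (by simpa using isUnit_of_dvd_one h1)

theorem mul_mem_cop_iff {T : Finset (HeightOneSpectrum (𝓞 F))} {v : HeightOneSpectrum (𝓞 F)}
    (hv : v ∉ T) (J : (Ideal (𝓞 F))⁰) : toIdl F v * J ∈ cop F T ↔ J ∈ cop F T := by
  constructor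
  · intro h w hw hd
    exact h w hw (Dvd.dvd.mul_left hd _)
  · intro h w hw hd
    have hd' : w.asIdeal ∣ v.asIdeal * (J : Ideal (𝓞 F)) := hd
    rcases (w.prime.dvd_or_dvd hd') with h1 | h1
    · have : w = v := by
        apply HeightOneSpectrum.ext
        have hle : v.asIdeal ≤ w.asIdeal := Ideal.le_of_dvd h1
        exact (v.isMaximal.eq_of_le w.isPrime.ne_top hle).symm
      exact hv (this ▸ hw)
    · exact h w hw h1

theorem exists_dvd_of_ne_one {I : (Ideal (𝓞 F))⁰} (hI : I ≠ 1) :
    ∃ v : HeightOneSpectrum (𝓞 F), v.asIdeal ∣ (I : Ideal (𝓞 F)) := by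
  have hI0 : (I : Ideal (𝓞 F)) ≠ ⊥ := mem_nonZeroDivisors_iff_ne_zero.mp I.2
  have hI1 : (I : Ideal (𝓞 F)) ≠ ⊤ := by
    intro h
    apply hI
    ext1
    simpa using h
  obtain ⟨M, hM, hIM⟩ := Ideal.exists_le_maximal _ hI1
  have hM0 : M ≠ ⊥ := by
    rintro rfl
    exact hI0 (le_bot_iff.mp hIM)
  exact ⟨⟨M, hM.isPrime, hM0⟩, Ideal.dvd_iff_le.mpr hIM⟩

variable (F) in
/-- `N(I)^(-s)` as a monoid homomorphism. -/
noncomputable def nrmHom (s : ℝ) : (Ideal (𝓞 F))⁰ →* ℝ where
  toFun := nrm F s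
  map_one' := by simp [nrm]
  map_mul' I J := by
    simp only [nrm, Submonoid.coe_mul, map_mul, Nat.cast_mul]
    exact Real.mul_rpow (Nat.cast_nonneg _) (Nat.cast_nonneg _)

section General

variable {R : Type*} [NormedField R] [CompleteSpace R]

/-- **Euler's sieve**. -/
theorem sieve_eq (f : (Ideal (𝓞 F))⁰ →* R) (hf : Summable fun I ↦ ‖f I‖)
    (T : Finset (HeightOneSpectrum (𝓞 F))) :
    (∏ v ∈ T, (1 - f (toIdl F v))) * ∑' I, f I = ∑' I, (cop F T).indicator f I := by
  classical
  have hfs : Summable f := hf.of_norm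
  induction T using Finset.induction_on with
  | empty =>
    have : cop F (∅ : Finset (HeightOneSpectrum (𝓞 F))) = Set.univ := by
      ext I; simp [cop]
    simp [this]
  | insert v T hv ih =>
    rw [Finset.prod_insert hv, mul_assoc, ih, sub_mul, one_mul]
    have hsT : Summable ((cop F T).indicator f) := hfs.indicator _
    -- the multiples of `v`
    have hinj : Function.Injective (fun J : (Ideal (𝓞 F))⁰ ↦ toIdl F v * J) := by
      intro J J' h
      exact mul_left_cancel h
    have h1 : f (toIdl F v) * ∑' I, (cop F T).indicator f I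
        = ∑' I, ((cop F T) ∩ {I | v.asIdeal ∣ (I : Ideal (𝓞 F))}).indicator f I := by
      have hsupp : Function.support
          (((cop F T) ∩ {I | v.asIdeal ∣ (I : Ideal (𝓞 F))}).indicator f) ⊆
          Set.range (fun J : (Ideal (𝓞 F))⁰ ↦ toIdl F v * J) := by
        intro I hI
        have hI' : I ∈ (cop F T) ∩ {I | v.asIdeal ∣ (I : Ideal (𝓞 F))} := by
          by_contra h
          exact hI (Set.indicator_of_notMem h f)
        obtain ⟨J, hJ⟩ := hI'.2
        have hJ0 : J ∈ (Ideal (𝓞 F))⁰ := by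
          rw [mem_nonZeroDivisors_iff_ne_zero]
          rintro rfl
          have := mem_nonZeroDivisors_iff_ne_zero.mp I.2
          rw [hJ] at this
          simp at this
        exact ⟨⟨J, hJ0⟩, Subtype.ext hJ.symm⟩
      rw [← tsum_mul_left, ← hinj.tsum_eq hsupp]
      refine tsum_congr fun J ↦ ?_
      by_cases hJ : J ∈ cop F T
      · rw [Set.indicator_of_mem hJ, Set.indicator_of_mem, map_mul]
        exact ⟨(mul_mem_cop_iff hv J).mpr hJ, Dvd.intro _ rfl⟩
      · rw [Set.indicator_of_notMem hJ, Set.indicator_of_notMem, mul_zero]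
        exact fun h ↦ hJ ((mul_mem_cop_iff hv J).mp h.1)
    rw [h1, ← (hsT.tsum_sub (hfs.indicator _))]
    refine tsum_congr fun I ↦ ?_
    by_cases hI : I ∈ cop F T
    · by_cases hvI : v.asIdeal ∣ (I : Ideal (𝓞 F))
      · rw [Set.indicator_of_mem hI, Set.indicator_of_mem (Set.mem_inter hI hvI), sub_self,
          Set.indicator_of_notMem]
        exact fun h ↦ h v (Finset.mem_insert_self v T) hvI
      · rw [Set.indicator_of_mem hI, Set.indicator_of_notMem (fun h ↦ hvI h.2), sub_zero,
          Set.indicator_of_mem]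
        intro w hw
        rcases Finset.mem_insert.mp hw with rfl | hw
        · exact hvI
        · exact hI w hw
    · rw [Set.indicator_of_notMem hI, Set.indicator_of_notMem (fun h ↦ hI h.1), sub_zero,
        Set.indicator_of_notMem]
      exact fun h ↦ hI fun w hw ↦ h w (Finset.mem_insert_of_mem hw)

end General

end Sieve

open Sieve in
theorem sieve_tendsto (f : (Ideal (𝓞 F))⁰ →* ℂ) (hf : Summable fun I ↦ ‖f I‖) :
    Tendsto (fun T : Finset (HeightOneSpectrum (𝓞 F)) ↦
      (∏ v ∈ T, (1 - f (toIdl F v))) * ∑' I, f I) atTop (𝓝 1) := by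
  classical
  simp_rw [sieve_eq f hf]
  have hlim : (1 : ℂ) = ∑' I : (Ideal (𝓞 F))⁰, (if I = 1 then (1 : ℂ) else 0) := by
    rw [tsum_ite_eq]
  rw [hlim]
  refine tendsto_tsum_of_dominated_convergence hf (fun I ↦ ?_) (Eventually.of_forall fun T I ↦ ?_)
  · by_cases hI : I = 1
    · subst hI
      rw [if_pos rfl]
      refine tendsto_const_nhds.congr fun T ↦ ?_
      rw [Set.indicator_of_mem (one_mem_cop T), map_one]
    · rw [if_neg hI]
      obtain ⟨v, hv⟩ := exists_dvd_of_ne_one hI
      refine tendsto_const_nhds.congr' ?_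
      filter_upwards [eventually_ge_atTop ({v} : Finset (HeightOneSpectrum (𝓞 F)))] with T hT
      rw [Set.indicator_of_notMem]
      exact fun h ↦ h v (hT (Finset.mem_singleton_self v)) hv
  · exact norm_indicator_le_norm_self _ _

theorem sieve_real_ge {s : ℝ} (hs : 1 < s) (T : Finset (HeightOneSpectrum (𝓞 F))) :
    1 ≤ (∏ v ∈ T, (1 - pnrm F s v)) * zetaR F s := by
  classical
  have hsum : Summable (nrm F s) := summable_nrm F hs
  have hnn : ∀ I, 0 ≤ nrm F s I := fun I ↦ Real.rpow_nonneg (Nat.cast_nonneg _) _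
  have h := Sieve.sieve_eq (Sieve.nrmHom F s) (by
    refine hsum.congr fun I ↦ ?_
    exact (Real.norm_of_nonneg (hnn I)).symm) T
  have h' : (∏ v ∈ T, (1 - pnrm F s v)) * zetaR F s
      = ∑' I, (Sieve.cop F T).indicator (nrm F s) I := h
  rw [h']
  have h1 : (Sieve.cop F T).indicator (nrm F s) 1 = 1 := by
    rw [Set.indicator_of_mem (Sieve.one_mem_cop T)]
    exact map_one (Sieve.nrmHom F s)
  rw [← h1]
  exact (hsum.indicator _).le_tsum 1 fun I _ ↦ Set.indicator_nonneg (fun I _ ↦ hnn I) I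

end Fermat.Agent.S14.AN
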