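/-
S14 / AN-Kummer: splitting of primes in the Kummer extension `F(η^(1/p))`.
-/
import Mathlib

set_option autoImplicit false

namespace Fermat.Agent.S14.Kummer

open NumberField Polynomial
open scoped NumberField nonZeroDivisors

section Roots

variable {R : Type*} [CommRing R] [IsDomain R]

/-- `ζ^k - ζ^l` divides `p` for `l < k < p`. -/
theorem pow_sub_pow_dvd_prime {p : ℕ} (hp : p.Prime) {ζ : R} (hζ : IsPrimitiveRoot ζ p)
    {k l : ℕ} (hlk : l < k) (hk : k < p) : ζ ^ k - ζ ^ l ∣ (p : R) := by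
  obtain ⟨n, rfl⟩ : ∃ n, p = n + 1 := ⟨p - 1, by have := hp.pos; omega⟩
  have h := hζ.prod_one_sub_pow_eq_order
  have hmem : k - l - 1 ∈ Finset.range n := by
    rw [Finset.mem_range]; omega
  have hd : (1 - ζ ^ (k - l - 1 + 1)) ∣ ((n + 1 : ℕ) : R) := by
    have := Finset.dvd_prod_of_mem (fun k => (1 - ζ ^ (k + 1))) hmem
    rw [h] at this
    simpa using this
  have he : k - l - 1 + 1 = k - l := by omega
  rw [he] at hd
  have hu : IsUnit (ζ ^ l) := (hζ.isUnit (by omega)).pow l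
  have : ζ ^ k - ζ ^ l = (-(ζ ^ l)) * (1 - ζ ^ (k - l)) := by
    have : ζ ^ k = ζ ^ l * ζ ^ (k - l) := by rw [← pow_add]; congr 1; omega
    rw [this]; ring
  rw [this]
  exact (hu.neg.mul_left_dvd).mpr hd

end Roots

section Core

variable {F E : Type} [Field F] [NumberField F] [Field E] [NumberField E] [Algebra F E]

theorem exists_primes_over {p : ℕ} (hp : p.Prime) (hdeg : Module.finrank F E = p)
    (ζ : 𝓞 F) (hζ : IsPrimitiveRoot ζ p) (η : 𝓞 F) (B : 𝓞 E)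
    (hB : B ^ p = algebraMap (𝓞 F) (𝓞 E) η)
    (σ : 𝓞 E ≃ₐ[𝓞 F] 𝓞 E) (hσ : σ B = algebraMap (𝓞 F) (𝓞 E) ζ * B)
    (v : Ideal (𝓞 F)) (hv : v.IsPrime) (hv0 : v ≠ ⊥) (hpv : (p : 𝓞 F) ∉ v) (hηv : η ∉ v)
    (x : 𝓞 F) (hx : x ^ p - η ∈ v) :
    ∃ T : Finset (Ideal (𝓞 E)), T.card = p ∧ ∀ w ∈ T, w.IsPrime ∧ w ≠ ⊥ ∧
      w.comap (algebraMap (𝓞 F) (𝓞 E)) = v ∧ Ideal.absNorm w = Ideal.absNorm v := by
  classical
  have : NeZero p := ⟨hp.ne_zero⟩
  set ι := algebraMap (𝓞 F) (𝓞 E) with hι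
  have hinj : Function.Injective ι := FaithfulSMul.algebraMap_injective (𝓞 F) (𝓞 E)
  have hvmax : v.IsMaximal := hv.isMaximal hv0
  obtain ⟨M, hMmax, hMover⟩ := Ideal.exists_maximal_ideal_liesOver_of_isIntegral (S := 𝓞 E) v
  have hMv : M.comap ι = v := (hMover.over).symm
  have hMprime : M.IsPrime := hMmax.isPrime
  -- a root of unity `ξ` with `B - ξ x ∈ M`
  have hζE : IsPrimitiveRoot (ι ζ) p := hζ.map_of_injective hinj
  have hprod := hζE.pow_sub_pow_eq_prod_sub_mul B (ι x) hp.pos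
  have hmem : B ^ p - (ι x) ^ p ∈ M := by
    have : B ^ p - (ι x) ^ p = - ι (x ^ p - η) := by rw [hB]; simp
    rw [this]
    apply M.neg_mem
    have : x ^ p - η ∈ M.comap ι := hMv ▸ hx
    exact this
  rw [hprod] at hmem
  obtain ⟨ξ, hξ, hξM⟩ := (hMprime.prod_mem_iff).mp hmem
  have hξ1 : ξ ^ p = 1 := ((mem_nthRootsFinset hp.pos 1).mp hξ)
  obtain ⟨i, -, rfl⟩ := hζE.eq_pow_of_pow_eq_one hξ1
  set c₀ : 𝓞 F := ζ ^ i * x with hc₀
  have hc₀M : B - ι c₀ ∈ M := by simpa [hc₀] using hξM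
  have hc₀v : c₀ ∉ v := by
    intro hc
    apply hηv
    have h1 : ι c₀ ∈ M := by
      have : c₀ ∈ M.comap ι := hMv ▸ hc
      exact this
    have h2 : B ∈ M := by
      have := M.add_mem hc₀M h1
      simpa using this
    have h3 : ι η ∈ M := by rw [← hB]; exact M.pow_mem_of_mem h2 p hp.pos
    have : η ∈ M.comap ι := h3
    rwa [hMv] at this
  -- the conjugates
  let w : ℕ → Ideal (𝓞 E) := fun k => M.comap ((σ ^ k : 𝓞 E ≃ₐ[𝓞 F] 𝓞 E) : 𝓞 E →+* 𝓞 E)
  have hσk : ∀ k : ℕ, (σ ^ k : 𝓞 E ≃ₐ[𝓞 F] 𝓞 E) B = ι ζ ^ k * B := by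
    intro k
    induction k with
    | zero => simp
    | succ k ih =>
      rw [pow_succ', AlgEquiv.mul_apply, ih, map_mul, map_pow, hσ, AlgEquiv.commutes]
      ring
  have hwprime : ∀ k, (w k).IsPrime := fun k => Ideal.comap_isPrime _ _
  have hwover : ∀ k, (w k).comap ι = v := by
    intro k
    ext y
    simp only [w, Ideal.mem_comap]
    have : ((σ ^ k : 𝓞 E ≃ₐ[𝓞 F] 𝓞 E) : 𝓞 E →+* 𝓞 E) (ι y) = ι y :=
      (σ ^ k : 𝓞 E ≃ₐ[𝓞 F] 𝓞 E).commutes y
    rw [this, ← hMv]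
    rfl
  have hwmem : ∀ k, B - ι (ζ ^ k * c₀) ∈ w k := by
    intro k
    simp only [w, Ideal.mem_comap]
    have : ((σ ^ k : 𝓞 E ≃ₐ[𝓞 F] 𝓞 E) : 𝓞 E →+* 𝓞 E) (B - ι (ζ ^ k * c₀))
        = ι ζ ^ k * (B - ι c₀) := by
      have h1 : ((σ ^ k : 𝓞 E ≃ₐ[𝓞 F] 𝓞 E) : 𝓞 E →+* 𝓞 E) (ι (ζ ^ k * c₀)) = ι (ζ ^ k * c₀) :=
        (σ ^ k : 𝓞 E ≃ₐ[𝓞 F] 𝓞 E).commutes _
      have h2 : ((σ ^ k : 𝓞 E ≃ₐ[𝓞 F] 𝓞 E) : 𝓞 E →+* 𝓞 E) B = ι ζ ^ k * B := hσk k
      rw [map_sub, h1, h2, map_mul, map_pow]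
      ring
    rw [this]
    exact M.mul_mem_left _ hc₀M
  have hne : ∀ k l, l < k → k < p → w k ≠ w l := by
    intro k l hlk hk heq
    have h1 := hwmem k
    have h2 := hwmem l
    rw [← heq] at h2
    have h3 : ι ((ζ ^ k - ζ ^ l) * c₀) ∈ w k := by
      have := (w k).sub_mem h2 h1
      have e : (B - ι (ζ ^ l * c₀)) - (B - ι (ζ ^ k * c₀)) = ι ((ζ ^ k - ζ ^ l) * c₀) := by
        simp only [map_mul, map_sub, map_pow]; ring
      rwa [e] at this
    have h4 : (ζ ^ k - ζ ^ l) * c₀ ∈ v := by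
      rw [← hwover k]; exact h3
    rcases hv.mem_or_mem h4 with h5 | h5
    · exact hpv (v.mem_of_dvd (pow_sub_pow_dvd_prime hp hζ hlk hk) h5)
    · exact hc₀v h5
  have hwinj : Set.InjOn w (Finset.range p : Set ℕ) := by
    intro k hk l hl h
    simp only [Finset.coe_range, Set.mem_Iio] at hk hl
    rcases lt_trichotomy k l with h' | h' | h'
    · exact absurd h.symm (hne l k h' hl)
    · exact h'
    · exact absurd h (hne k l h' hk)
  let T : Finset (Ideal (𝓞 E)) := (Finset.range p).image w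
  have hTcard : T.card = p := by
    rw [Finset.card_image_of_injOn hwinj, Finset.card_range]
  have hw0 : ∀ k, w k ≠ ⊥ := by
    intro k h
    apply hv0
    rw [← hwover k, h]
    exact Ideal.comap_bot_of_injective _ hinj
  -- norms
  set m := Ideal.absNorm v with hm
  have hm2 : 2 ≤ m := by
    have h0 : m ≠ 0 := by
      rw [hm, Ne, Ideal.absNorm_eq_zero_iff]; exact hv0
    have h1 : m ≠ 1 := by
      rw [hm, Ne, Ideal.absNorm_eq_one_iff]; exact hv.ne_top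
    omega
  let f : Ideal (𝓞 E) → ℕ := fun P => v.inertiaDeg' P
  have hnorm : ∀ k, Ideal.absNorm (w k) = m ^ f (w k) := by
    intro k
    have : (w k).LiesOver v := ⟨(hwover k).symm⟩
    exact Ideal.absNorm_eq_pow_inertiaDeg'_of_liesOver (w k) v hv hv0
  have hfpos : ∀ k, 1 ≤ f (w k) := by
    intro k
    by_contra h
    have h0 : f (w k) = 0 := by omega
    have := hnorm k
    rw [h0, pow_zero, Ideal.absNorm_eq_one_iff] at this
    exact (hwprime k).ne_top this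
  have hdvd : ∏ P ∈ T, P ∣ v.map ι := by
    apply Finset.prod_primes_dvd
    · intro P hP
      obtain ⟨k, -, rfl⟩ := Finset.mem_image.mp hP
      exact Ideal.prime_of_isPrime (hw0 k) (hwprime k)
    · intro P hP
      obtain ⟨k, -, rfl⟩ := Finset.mem_image.mp hP
      rw [Ideal.dvd_iff_le, Ideal.map_le_iff_le_comap, hwover k]
  have hnormmap : Ideal.absNorm (v.map ι) = m ^ p := by
    rw [hι, Ideal.absNorm_algebraMap, ← IsFractionRing.finrank_eq (𝓞 F) F (𝓞 E) E, hdeg]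
  have hdvd2 : m ^ (∑ P ∈ T, f P) ∣ m ^ p := by
    have h1 := map_dvd Ideal.absNorm hdvd
    rw [hnormmap, map_prod] at h1
    have h2 : ∏ P ∈ T, Ideal.absNorm P = m ^ (∑ P ∈ T, f P) := by
      rw [← Finset.prod_pow_eq_pow_sum]
      apply Finset.prod_congr rfl
      intro P hP
      obtain ⟨k, -, rfl⟩ := Finset.mem_image.mp hP
      exact hnorm k
    rwa [h2] at h1
  have hsum : ∑ P ∈ T, f P ≤ p := (Nat.pow_dvd_pow_iff_le_right hm2).mp hdvd2
  have hfone : ∀ P ∈ T, f P = 1 := by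
    by_contra hcon
    push Not at hcon
    obtain ⟨P, hP, hP1⟩ := hcon
    have hlt : ∑ Q ∈ T, 1 < ∑ Q ∈ T, f Q := by
      apply Finset.sum_lt_sum
      · intro Q hQ
        obtain ⟨k, -, rfl⟩ := Finset.mem_image.mp hQ
        exact hfpos k
      · refine ⟨P, hP, ?_⟩
        obtain ⟨k, -, rfl⟩ := Finset.mem_image.mp hP
        have := hfpos k
        omega
    simp only [Finset.sum_const, smul_eq_mul, mul_one, hTcard] at hlt
    omega
  refine ⟨T, hTcard, ?_⟩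
  intro P hP
  have h1 := hfone P hP
  obtain ⟨k, -, rfl⟩ := Finset.mem_image.mp hP
  refine ⟨hwprime k, hw0 k, hwover k, ?_⟩
  rw [hnorm k, h1, pow_one]

end Core

section Main

/-- Existence of the Kummer data. -/
theorem exists_kummer_data (F : Type) [Field F] [NumberField F] (p : ℕ) [Fact p.Prime]
    (ζ : F) (hζ : IsPrimitiveRoot ζ p) (η : 𝓞 F) (hη : ¬ ∃ x : F, x ^ p = (η : F)) :
    ∃ (E : Type) (_ : Field E) (_ : NumberField E) (_ : Algebra F E) (ζ' : 𝓞 F) (B : 𝓞 E)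
      (σ : 𝓞 E ≃ₐ[𝓞 F] 𝓞 E), Module.finrank F E = p ∧ IsPrimitiveRoot ζ' p ∧
        B ^ p = algebraMap (𝓞 F) (𝓞 E) η ∧ σ B = algebraMap (𝓞 F) (𝓞 E) ζ' * B := by
  have hp : p.Prime := Fact.out
  have : NeZero p := ⟨hp.ne_zero⟩
  have hirr : Irreducible (X ^ p - C (η : F) : F[X]) :=
    X_pow_sub_C_irreducible_of_prime hp (fun b hb => hη ⟨b, hb⟩)
  have hprim : (primitiveRoots p F).Nonempty := ⟨ζ, (mem_primitiveRoots hp.pos).mpr hζ⟩
  let E : Type := (X ^ p - C (η : F) : F[X]).SplittingField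
  let _ : NumberField E := NumberField.of_module_finite F E
  have hdeg : Module.finrank F E = p := finrank_of_isSplittingField_X_pow_sub_C hprim hirr E
  -- a root
  have hsplit : ((X ^ p - C (η : F) : F[X]).map (algebraMap F E)).Splits :=
    IsSplittingField.splits E (X ^ p - C (η : F) : F[X])
  have hdegpos : ((X ^ p - C (η : F) : F[X]).map (algebraMap F E)).degree ≠ 0 := by
    rw [degree_map, degree_X_pow_sub_C hp.pos]
    exact_mod_cast hp.ne_zero
  obtain ⟨B₀, hB₀⟩ := hsplit.exists_eval_eq_zero hdegpos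
  have hB₀' : B₀ ^ p = algebraMap F E (η : F) := by
    simpa [sub_eq_zero] using hB₀
  have hB₀int : IsIntegral ℤ B₀ := by
    have h1 : IsIntegral ℤ (algebraMap F E (η : F)) := (η.isIntegral_coe).algebraMap
    rw [← hB₀'] at h1
    exact h1.of_pow hp.pos
  let B : 𝓞 E := ⟨B₀, hB₀int⟩
  let σ₀ : Gal(E/F) := (autEquivRootsOfUnity hprim hirr E).symm hζ.toRootsOfUnity
  have hσ₀ : σ₀ B₀ = algebraMap F E ζ * B₀ := by
    have := autEquivRootsOfUnity_smul hprim hirr E hB₀' σ₀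
    rw [← this]
    simp only [σ₀, MulEquiv.apply_symm_apply]
    rw [Subgroup.smul_def, Units.smul_def, Algebra.smul_def]
    rfl
  refine ⟨E, inferInstance, inferInstance, inferInstance, hζ.toInteger, B,
    RingOfIntegers.mapAlgEquiv σ₀, hdeg, hζ.toInteger_isPrimitiveRoot, ?_, ?_⟩
  · apply FaithfulSMul.algebraMap_injective (𝓞 E) E
    rw [map_pow, ← IsScalarTower.algebraMap_apply (𝓞 F) (𝓞 E) E,
      IsScalarTower.algebraMap_apply (𝓞 F) F E]
    exact hB₀'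
  · apply FaithfulSMul.algebraMap_injective (𝓞 E) E
    rw [map_mul, ← IsScalarTower.algebraMap_apply (𝓞 F) (𝓞 E) E,
      IsScalarTower.algebraMap_apply (𝓞 F) F E]
    exact hσ₀

end Main

end Fermat.Agent.S14.Kummer

namespace Fermat.Agent.S14

open NumberField Polynomial
open scoped NumberField nonZeroDivisors

/-- **AN-Kummer.** If `η` is not a `p`-th power in `F ∋ ζ_p`, there is a number field `E`
(namely `F(η^(1/p))`) such that every finite set `S` of primes `v ∤ pη` of `F` modulo which `η` is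
a `p`-th power is covered by a finite set `S'` of primes of `E`, with `p` primes of the same
norm above each `v ∈ S`. -/
theorem AN_kummer (F : Type) [Field F] [NumberField F] (p : ℕ) [Fact p.Prime]
    (ζ : F) (hζ : IsPrimitiveRoot ζ p) (η : 𝓞 F) (hη : ¬ ∃ x : F, x ^ p = (η : F)) :
    ∃ (E : Type) (_ : Field E) (_ : NumberField E), ∀ S : Finset (Ideal (𝓞 F)),
      (∀ v ∈ S, v.IsPrime ∧ v ≠ ⊥ ∧ (p : 𝓞 F) ∉ v ∧ η ∉ v ∧ ∃ x : 𝓞 F, x ^ p - η ∈ v) →
      ∃ S' : Finset (Ideal (𝓞 E)), (∀ w ∈ S', w.IsPrime ∧ w ≠ ⊥) ∧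
        ∀ s : ℝ, ∑ w ∈ S', ((Ideal.absNorm w : ℝ)) ^ (-s)
          = p * ∑ v ∈ S, ((Ideal.absNorm v : ℝ)) ^ (-s) := by
  classical
  have hp : p.Prime := Fact.out
  obtain ⟨E, _, _, _, ζ', B, σ, hdeg, hζ', hB, hσ⟩ := Kummer.exists_kummer_data F p ζ hζ η hη
  refine ⟨E, inferInstance, inferInstance, ?_⟩
  intro S hS
  have key : ∀ v : Ideal (𝓞 F), v ∈ S → ∃ T : Finset (Ideal (𝓞 E)), T.card = p ∧ ∀ w ∈ T,
      w.IsPrime ∧ w ≠ ⊥ ∧ w.comap (algebraMap (𝓞 F) (𝓞 E)) = v ∧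
        Ideal.absNorm w = Ideal.absNorm v := by
    intro v hv
    obtain ⟨h1, h2, h3, h4, x, hx⟩ := hS v hv
    exact Kummer.exists_primes_over hp hdeg ζ' hζ' η B hB σ hσ v h1 h2 h3 h4 x hx
  choose! T hTcard hT using key
  refine ⟨S.biUnion T, ?_, ?_⟩
  · intro w hw
    obtain ⟨v, hv, hwv⟩ := Finset.mem_biUnion.mp hw
    exact ⟨(hT v hv w hwv).1, (hT v hv w hwv).2.1⟩
  · intro s
    rw [Finset.sum_biUnion, Finset.mul_sum]
    · apply Finset.sum_congr rfl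
      intro v hv
      rw [Finset.sum_congr rfl (fun w hw => by rw [(hT v hv w hw).2.2.2]), Finset.sum_const,
        hTcard v hv, nsmul_eq_mul]
    · intro v hv v' hv' hne
      rw [Function.onFun, Finset.disjoint_left]
      intro w hw hw'
      exact hne ((hT v hv w hw).2.2.1.symm.trans (hT v' hv' w hw').2.2.1)

end Fermat.Agent.S14
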