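import Fermat.Agent.S14.AN.Defs
import Fermat.Agent.S14.AN.Kummer

set_option autoImplicit false

namespace Fermat.Agent.S14.AN

open NumberField IsDedekindDomain NumberField.mixedEmbedding NumberField.InfinitePlace
  NumberField.mixedEmbedding.fundamentalCone NumberField.Units NumberField.Units.dirichletUnitTheorem
  Filter Topology MeasureTheory
open scoped NumberField nonZeroDivisors

variable (F : Type) [Field F] [NumberField F]

theorem exists_kummer_field (p : ℕ) [Fact p.Prime] (ζ : F) (hζ : IsPrimitiveRoot ζ p) (η : 𝓞 F)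
    (hη : ¬ ∃ x : F, x ^ p = (η : F)) :
    ∃ (E : Type) (_ : Field E) (_ : NumberField E) (_ : Algebra F E),
      ∀ v : HeightOneSpectrum (𝓞 F), (p : 𝓞 F) ∉ v.asIdeal → η ∉ v.asIdeal →
        (∃ x : 𝓞 F, x ^ p - η ∈ v.asIdeal) →
        ∃ S : Finset (HeightOneSpectrum (𝓞 E)), S.card = p ∧ ∀ w ∈ S,
          w.asIdeal.comap (algebraMap (𝓞 F) (𝓞 E)) = v.asIdeal ∧
          Ideal.absNorm w.asIdeal = Ideal.absNorm v.asIdeal := by
  classical
  have hp : p.Prime := Fact.out
  obtain ⟨E, _, _, _, ζ', B, σ, hdeg, hζ', hB, hσ⟩ := Kummer.exists_kummer_data F p ζ hζ η hη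
  refine ⟨E, inferInstance, inferInstance, inferInstance, ?_⟩
  rintro v h3 h4 ⟨x, hx⟩
  obtain ⟨T, hTcard, hT⟩ :=
    Kummer.exists_primes_over hp hdeg ζ' hζ' η B hB σ hσ v.asIdeal v.isPrime v.ne_bot h3 h4 x hx
  let g : {w // w ∈ T} → HeightOneSpectrum (𝓞 E) :=
    fun w => ⟨w.1, (hT w.1 w.2).1, (hT w.1 w.2).2.1⟩
  have hg : Function.Injective g := by
    intro a b hab
    apply Subtype.ext
    exact congrArg HeightOneSpectrum.asIdeal hab
  refine ⟨T.attach.image g, ?_, ?_⟩
  · rw [Finset.card_image_of_injective _ hg, Finset.card_attach, hTcard]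
  · intro w hw
    obtain ⟨a, -, rfl⟩ := Finset.mem_image.mp hw
    exact (hT a.1 a.2).2.2

end Fermat.Agent.S14.AN
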