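/-
S14 / AN-Coset, abstract part: comparison of the sum of a function over a ring with the sum over
an ideal of finite index (no number fields here).
-/
import Mathlib

set_option autoImplicit false

namespace Fermat.Agent.S14.AN.CosetAux

variable {R : Type*} [CommRing R] (J : Ideal R)

/-- `R ≃ (R ⧸ J) × J`, `a ↦ (class of a, a - representative)`. -/
noncomputable def cosetEquiv : R ≃ (R ⧸ J) × J where
  toFun a := (Ideal.Quotient.mk J a, ⟨a - Quotient.out (Ideal.Quotient.mk J a), by
    rw [← Ideal.Quotient.eq]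
    exact (Ideal.Quotient.mk_out _).symm⟩)
  invFun p := (p.2 : R) + Quotient.out p.1
  left_inv a := by simp
  right_inv p := by
    have h : Ideal.Quotient.mk J ((p.2 : R) + Quotient.out p.1) = p.1 := by
      rw [map_add, Ideal.Quotient.eq_zero_iff_mem.mpr p.2.2, zero_add, Ideal.Quotient.mk_out]
    ext
    · exact h
    · simp [h]

theorem cosetEquiv_symm_apply (p : (R ⧸ J) × J) :
    (cosetEquiv J).symm p = (p.2 : R) + Quotient.out p.1 := rfl

theorem abs_card_mul_tsum_sub_tsum_le [Finite (R ⧸ J)] (g h : R → ℝ) (C : ℝ)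
    (hg : Summable g) (hh : Summable h) (hh0 : ∀ a, 0 ≤ h a) (hC : 0 ≤ C)
    (hbound : ∀ (t : R ⧸ J) (a : J), |g ((a : R) + Quotient.out t) - g a| ≤ C * h a) :
    |(Nat.card (R ⧸ J) : ℝ) * ∑' a : J, g a - ∑' a : R, g a|
      ≤ Nat.card (R ⧸ J) * (C * ∑' a, h a) := by
  classical
  have := Fintype.ofFinite (R ⧸ J)
  have hgJ : Summable fun a : J => g a := hg.subtype _
  have hhJ : Summable fun a : J => h a := hh.subtype _
  have hg' : Summable fun p : (R ⧸ J) × J => g ((p.2 : R) + Quotient.out p.1) := by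
    have := (cosetEquiv J).symm.summable_iff.mpr hg
    exact this
  have hgt : ∀ t : R ⧸ J, Summable fun a : J => g ((a : R) + Quotient.out t) :=
    fun t => hg'.prod_factor t
  have h1 : ∑' a : R, g a = ∑ t : R ⧸ J, ∑' a : J, g ((a : R) + Quotient.out t) := by
    rw [← (cosetEquiv J).symm.tsum_eq g]
    simp only [cosetEquiv_symm_apply]
    rw [hg'.tsum_prod' hgt, tsum_fintype]
  have h2 : (Nat.card (R ⧸ J) : ℝ) * ∑' a : J, g a = ∑ t : R ⧸ J, ∑' a : J, g a := by
    rw [Finset.sum_const, Finset.card_univ, Nat.card_eq_fintype_card, nsmul_eq_mul]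
  rw [h1, h2, ← Finset.sum_sub_distrib]
  have h3 : ∀ t : R ⧸ J, |∑' a : J, g a - ∑' a : J, g ((a : R) + Quotient.out t)|
      ≤ C * ∑' a, h a := by
    intro t
    rw [← (hgJ.tsum_sub (hgt t))]
    have hs : Summable fun a : J => C * h a := hhJ.mul_left C
    have hle : ∀ a : J, ‖g a - g ((a : R) + Quotient.out t)‖ ≤ C * h a := by
      intro a
      rw [Real.norm_eq_abs, abs_sub_comm]
      exact hbound t a
    calc |∑' a : J, (g a - g ((a : R) + Quotient.out t))|
        = ‖∑' a : J, (g a - g ((a : R) + Quotient.out t))‖ := (Real.norm_eq_abs _).symm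
      _ ≤ ∑' a : J, C * h a := tsum_of_norm_bounded hs.hasSum hle
      _ = C * ∑' a : J, h a := tsum_mul_left
      _ ≤ C * ∑' a, h a := by
          apply mul_le_mul_of_nonneg_left _ hC
          exact hh.tsum_subtype_le _ _ hh0
  calc |∑ t : R ⧸ J, (∑' a : J, g a - ∑' a : J, g ((a : R) + Quotient.out t))|
      ≤ ∑ t : R ⧸ J, |∑' a : J, g a - ∑' a : J, g ((a : R) + Quotient.out t)| :=
        Finset.abs_sum_le_sum_abs _ _
    _ ≤ ∑ _t : R ⧸ J, C * ∑' a, h a := Finset.sum_le_sum fun t _ => h3 t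
    _ = Nat.card (R ⧸ J) * (C * ∑' a, h a) := by
        rw [Finset.sum_const, Finset.card_univ, Nat.card_eq_fintype_card, nsmul_eq_mul]

end Fermat.Agent.S14.AN.CosetAux
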