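import Fermat.Agent.S14.AN.Euler
import Fermat.Agent.S14.AN.PrimeSums
import Fermat.Agent.S14.AN.Split
import Fermat.Agent.S14.AN2.Final

set_option autoImplicit false

namespace Fermat.Agent.S14.AN

open NumberField IsDedekindDomain Filter Topology
open scoped NumberField nonZeroDivisors

variable (F : Type) [Field F] [NumberField F]

namespace Main

theorem pnrm_nonneg (s : ℝ) (v : HeightOneSpectrum (𝓞 F)) : 0 ≤ pnrm F s v := by
  unfold pnrm nrm
  positivity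

theorem norm_chr (ψ : ClassGroup (𝓞 F) →* ℂˣ) (I : (Ideal (𝓞 F))⁰) : ‖chr F ψ I‖ = 1 := by
  unfold chr
  have hfin : IsOfFinOrder (ψ (ClassGroup.mk0 I)) := ψ.isOfFinOrder (isOfFinOrder_of_finite _)
  have h2 : IsOfFinOrder ((ψ (ClassGroup.mk0 I) : ℂˣ) : ℂ) :=
    (Units.coeHom ℂ).isOfFinOrder hfin
  exact h2.norm_eq_one

theorem neg_one_le_re_chr (ψ : ClassGroup (𝓞 F) →* ℂˣ) (I : (Ideal (𝓞 F))⁰) :
    -1 ≤ (chr F ψ I).re := by
  have h := Complex.abs_re_le_norm (chr F ψ I)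
  rw [norm_chr] at h
  exact (abs_le.mp h).1

/-- The Kummer field gives the bound `exp (p * ∑ pnrm) ≤ C / (s - 1)`. -/
theorem kummer_bound (p : ℕ) [Fact p.Prime] (ζ : F) (hζ : IsPrimitiveRoot ζ p) (η : 𝓞 F)
    (hη : ¬ ∃ x : F, x ^ p = (η : F)) :
    ∃ C : ℝ, 0 < C ∧ ∀ᶠ s in 𝓝[>] (1 : ℝ), ∀ T : Finset (HeightOneSpectrum (𝓞 F)),
      (∀ v ∈ T, (p : 𝓞 F) ∉ v.asIdeal ∧ η ∉ v.asIdeal ∧ ∃ x : 𝓞 F, x ^ p - η ∈ v.asIdeal) →
      Real.exp (p * ∑ v ∈ T, pnrm F s v) ≤ C / (s - 1) := by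
  classical
  obtain ⟨E, _, _, _, hE⟩ := exists_kummer_field F p ζ hζ η hη
  obtain ⟨c, C, -, hC, hz⟩ := zetaR_bounds E
  refine ⟨C, hC, ?_⟩
  filter_upwards [hz, self_mem_nhdsWithin] with s hs hs1 T hT
  have hs1 : 1 < s := hs1
  choose! S hS using fun v (hv : v ∈ T) => hE v (hT v hv).1 (hT v hv).2.1 (hT v hv).2.2
  have hdisj : (T : Set (HeightOneSpectrum (𝓞 F))).PairwiseDisjoint S := by
    intro v hv v' hv' hne
    rw [Function.onFun, Finset.disjoint_left]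
    intro w hw hw'
    apply hne
    have h1 := ((hS v hv).2 w hw).1
    have h2 := ((hS v' hv').2 w hw').1
    exact HeightOneSpectrum.ext (h1.symm.trans h2)
  have hsum : ∑ w ∈ T.biUnion S, pnrm E s w = p * ∑ v ∈ T, pnrm F s v := by
    rw [Finset.sum_biUnion hdisj, Finset.mul_sum]
    refine Finset.sum_congr rfl fun v hv => ?_
    have : ∀ w ∈ S v, pnrm E s w = pnrm F s v := by
      intro w hw
      have := ((hS v hv).2 w hw).2
      simp only [pnrm, nrm, toIdl, this]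
    rw [Finset.sum_congr rfl this, Finset.sum_const, (hS v hv).1, nsmul_eq_mul]
  rw [← hsum]
  exact (exp_sum_le_zetaR E hs1 _).trans hs.2

/-- The purely real endgame. -/
theorem endgame {p : ℕ} (hp : 3 ≤ p) {D x y K₁ K₂ K₃ : ℝ} (hD : 0 ≤ D)
    (h1 : D ≤ y + x + K₁) (h2 : y - x ≤ K₂) (h3 : (p : ℝ) * x ≤ D + K₃) :
    D ≤ 3 * (K₁ + K₂ + |K₃|) := by
  have hp' : (3 : ℝ) ≤ p := by exact_mod_cast hp
  have hK : K₃ ≤ |K₃| := le_abs_self _
  have hK0 : 0 ≤ |K₃| := abs_nonneg _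
  by_cases hx : 0 ≤ x
  · have : 3 * x ≤ D + K₃ := le_trans (by nlinarith) h3
    nlinarith
  · push Not at hx
    nlinarith

end Main

open Main in
theorem exists_prime (p : ℕ) [Fact p.Prime] (hp : 3 ≤ p)
    (ζ : F) (hζ : IsPrimitiveRoot ζ p) (η : 𝓞 F) (hη : ¬ ∃ x : F, x ^ p = (η : F))
    (ψ : ClassGroup (𝓞 F) →* ℂˣ) (hψ : ψ ≠ 1) :
    ∃ (P : Ideal (𝓞 F)) (hP : P ≠ ⊥), P.IsPrime ∧ (Ideal.absNorm P).Prime ∧ Ideal.absNorm P ≠ p ∧
      ψ (ClassGroup.mk0 ⟨P, mem_nonZeroDivisors_iff_ne_zero.mpr hP⟩) ≠ 1 ∧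
      ¬ ∃ x : 𝓞 F, x ^ p - η ∈ P := by
  classical
  by_contra hcon
  push Not at hcon
  have hp0 : p ≠ 0 := (Fact.out : p.Prime).ne_zero
  have hη0 : η ≠ 0 := by
    rintro rfl
    exact hη ⟨0, by simp [hp0]⟩
  have hpη : (p : 𝓞 F) * η ≠ 0 := mul_ne_zero (by exact_mod_cast hp0) hη0
  obtain ⟨c, C₁, hc, -, hz⟩ := zetaR_bounds F
  obtain ⟨B, hB⟩ := AN2.Lfun_bounded F ψ hψ
  obtain ⟨Csq, hsq⟩ := sum_pnrm_sq_le F
  obtain ⟨Cnp, hnp⟩ := sum_pnrm_not_prime_le F
  obtain ⟨Cd, hd⟩ := sum_pnrm_dvd_le F _ hpη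
  obtain ⟨CE, hCE, hk⟩ := kummer_bound F p ζ hζ η hη
  -- the constants
  set K₁ : ℝ := Real.log 2 - Real.log c + (Cnp + Cd) + Csq with hK₁
  set K₂ : ℝ := Real.log (2 * B) + (Cnp + Cd) + Csq with hK₂
  set K₃ : ℝ := Real.log CE with hK₃
  set M : ℝ := 3 * (K₁ + K₂ + |K₃|) with hM
  have hsmall : ∀ᶠ s in 𝓝[>] (1 : ℝ), s < 1 + min 1 (Real.exp (-(M + 1))) := by
    have : Set.Ioo (1 : ℝ) (1 + min 1 (Real.exp (-(M + 1)))) ∈ 𝓝[>] (1 : ℝ) :=
      Ioo_mem_nhdsGT (by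
        have := lt_min one_pos (Real.exp_pos (-(M + 1)))
        linarith)
    filter_upwards [this] with s hs using hs.2
  have hgt : ∀ᶠ s in 𝓝[>] (1 : ℝ), 1 < s := self_mem_nhdsWithin
  obtain ⟨s, hzs, hks, hs1, hss⟩ :=
    (Filter.Eventually.and hz (Filter.Eventually.and hk (Filter.Eventually.and hgt hsmall))).exists
  have hs1 : 1 < s := hs1
  have hs2 : s ≤ 2 := by
    have := min_le_left 1 (Real.exp (-(M + 1)))
    linarith
  have hs0 : 0 < s - 1 := by linarith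
  set D : ℝ := -Real.log (s - 1) with hD
  have hDM : M + 1 < D := by
    have h1 : s - 1 < Real.exp (-(M + 1)) := by
      have := min_le_right 1 (Real.exp (-(M + 1)))
      linarith
    have h2 : Real.log (s - 1) < -(M + 1) := (Real.log_lt_iff_lt_exp hs0).mpr h1
    linarith
  obtain ⟨T, hT1, hT2⟩ :=
    (Filter.Eventually.and (zetaR_le_exp F hs1) (exp_le_norm_Lfun F ψ hs1)).exists
  -- the partition of `T`
  let G : HeightOneSpectrum (𝓞 F) → Prop := fun v =>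
    (Ideal.absNorm v.asIdeal).Prime ∧ (p : 𝓞 F) * η ∉ v.asIdeal
  let Y := (T.filter G).filter fun v => chr F ψ (toIdl F v) = 1
  let X := (T.filter G).filter fun v => ¬ chr F ψ (toIdl F v) = 1
  set y : ℝ := ∑ v ∈ Y, pnrm F s v with hy
  set x : ℝ := ∑ v ∈ X, pnrm F s v with hx
  set b : ℝ := ∑ v ∈ T.filter (fun v => ¬ G v), pnrm F s v with hb
  have hb0 : 0 ≤ b := Finset.sum_nonneg fun v _ => pnrm_nonneg F s v
  have hbC : b ≤ Cnp + Cd := by
    have h1 := hnp s hs1.le (T.filter fun v => ¬ (Ideal.absNorm v.asIdeal).Prime)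
      (fun v hv => (Finset.mem_filter.mp hv).2)
    have h2 := hd s hs1.le (T.filter fun v => (p : 𝓞 F) * η ∈ v.asIdeal)
      (fun v hv => (Finset.mem_filter.mp hv).2)
    refine le_trans ?_ (add_le_add h1 h2)
    rw [hb, Finset.sum_filter, Finset.sum_filter, Finset.sum_filter, ← Finset.sum_add_distrib]
    refine Finset.sum_le_sum fun v _ => ?_
    have := pnrm_nonneg F s v
    by_cases g1 : (Ideal.absNorm v.asIdeal).Prime <;> by_cases g2 : (p : 𝓞 F) * η ∈ v.asIdeal <;>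
      simp [G, g1, g2, this]
  have hsplit : ∀ f : HeightOneSpectrum (𝓞 F) → ℝ, ∑ v ∈ T, f v =
      ∑ v ∈ Y, f v + ∑ v ∈ X, f v + ∑ v ∈ T.filter (fun v => ¬ G v), f v := by
    intro f
    rw [Finset.sum_filter_add_sum_filter_not (T.filter G), Finset.sum_filter_add_sum_filter_not T]
  have hsqT := hsq s hs1.le T
  -- (1)
  have h1 : D ≤ y + x + K₁ := by
    have hle : c / (s - 1) ≤ 2 * Real.exp (y + x + b + Csq) := by
      refine hzs.1.trans (hT1.trans ?_)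
      gcongr
      rw [Finset.sum_add_distrib, hsplit]
      linarith
    have hlog := Real.log_le_log (by positivity) hle
    rw [Real.log_div hc.ne' hs0.ne', Real.log_mul two_ne_zero (Real.exp_pos _).ne',
      Real.log_exp] at hlog
    simp only [hK₁, hD]
    linarith
  -- (2)
  have hBpos : 0 < 2 * B := by
    have := (Real.exp_pos _).trans_le (hT2.trans
      (mul_le_mul_of_nonneg_left (hB s hs1 hs2) zero_le_two))
    exact this
  have h2 : y - x ≤ K₂ := by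
    have hle : Real.exp (y - x - b - Csq) ≤ 2 * B := by
      refine le_trans ?_ (hT2.trans (mul_le_mul_of_nonneg_left (hB s hs1 hs2) zero_le_two))
      gcongr
      rw [Finset.sum_sub_distrib, hsplit]
      have e1 : ∑ v ∈ Y, (chr F ψ (toIdl F v)).re * pnrm F s v = y := by
        refine Finset.sum_congr rfl fun v hv => ?_
        rw [(Finset.mem_filter.mp hv).2]
        simp
      have e2 : -x ≤ ∑ v ∈ X, (chr F ψ (toIdl F v)).re * pnrm F s v := by
        rw [hx, ← Finset.sum_neg_distrib]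
        refine Finset.sum_le_sum fun v _ => ?_
        have := neg_one_le_re_chr F ψ (toIdl F v)
        have := pnrm_nonneg F s v
        nlinarith
      have e3 : -b ≤ ∑ v ∈ T.filter (fun v => ¬ G v), (chr F ψ (toIdl F v)).re * pnrm F s v := by
        rw [hb, ← Finset.sum_neg_distrib]
        refine Finset.sum_le_sum fun v _ => ?_
        have := neg_one_le_re_chr F ψ (toIdl F v)
        have := pnrm_nonneg F s v
        nlinarith
      linarith
    have hlog := Real.log_le_log (Real.exp_pos _) hle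
    rw [Real.log_exp] at hlog
    simp only [hK₂]
    linarith
  -- (3)
  have h3 : (p : ℝ) * x ≤ D + K₃ := by
    have hX : ∀ v ∈ X, (p : 𝓞 F) ∉ v.asIdeal ∧ η ∉ v.asIdeal ∧
        ∃ x : 𝓞 F, x ^ p - η ∈ v.asIdeal := by
      intro v hv
      obtain ⟨hv1, hv2⟩ := Finset.mem_filter.mp hv
      obtain ⟨hprime, hnot⟩ := (Finset.mem_filter.mp hv1).2
      have hpv : (p : 𝓞 F) ∉ v.asIdeal := fun h => hnot (Ideal.mul_mem_right _ _ h)
      have hηv : η ∉ v.asIdeal := fun h => hnot (Ideal.mul_mem_left _ _ h)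
      refine ⟨hpv, hηv, ?_⟩
      refine hcon v.asIdeal v.ne_bot v.isPrime hprime ?_ ?_
      · intro h
        apply hpv
        have := Ideal.absNorm_mem v.asIdeal
        rwa [h] at this
      · intro h
        apply hv2
        simp only [chr, toIdl]
        rw [h]
        simp
    have hle := hks X hX
    have hlog := Real.log_le_log (Real.exp_pos _) hle
    rw [Real.log_exp, Real.log_div hCE.ne' hs0.ne'] at hlog
    simp only [hK₃, hD]
    linarith
  have hD0 : 0 ≤ D := by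
    have : 0 ≤ M ∨ M < 0 := le_or_gt 0 M
    have hlog : Real.log (s - 1) ≤ 0 := Real.log_nonpos hs0.le (by linarith)
    linarith
  have := endgame hp hD0 h1 h2 h3
  linarith

end Fermat.Agent.S14.AN

namespace Fermat.Agent.S14

open NumberField
open scoped NumberField nonZeroDivisors

theorem AN_exists_prime (F : Type) [Field F] [NumberField F] (p : ℕ) [Fact p.Prime] (hp : 3 ≤ p)
    (ζ : F) (hζ : IsPrimitiveRoot ζ p) (η : 𝓞 F) (hη : ¬ ∃ x : F, x ^ p = (η : F))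
    (ψ : ClassGroup (𝓞 F) →* ℂˣ) (hψ : ψ ≠ 1) (_hψp : ψ ^ p = 1) :
    ∃ (P : Ideal (𝓞 F)) (hP : P ≠ ⊥), P.IsPrime ∧ (Ideal.absNorm P).Prime ∧ Ideal.absNorm P ≠ p ∧
      ψ (ClassGroup.mk0 ⟨P, mem_nonZeroDivisors_iff_ne_zero.mpr hP⟩) ≠ 1 ∧
      ¬ ∃ x : 𝓞 F, x ^ p - η ∈ P :=
  AN.exists_prime F p hp ζ hζ η hη ψ hψ

end Fermat.Agent.S14
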