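import Mathlib

set_option autoImplicit false

namespace Fermat.Agent.S14.AN

open NumberField IsDedekindDomain NumberField.mixedEmbedding NumberField.InfinitePlace
  NumberField.mixedEmbedding.fundamentalCone NumberField.Units NumberField.Units.dirichletUnitTheorem
  Filter Topology MeasureTheory
open scoped NumberField nonZeroDivisors Pointwise

variable (F : Type) [Field F] [NumberField F]

theorem lattice_sandwich {E : Type*} [NormedAddCommGroup E] [NormedSpace ℝ E]
    [FiniteDimensional ℝ E] [MeasurableSpace E] [BorelSpace E] (μ : Measure E)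
    [μ.IsAddHaarMeasure] (L : Submodule ℤ E) [DiscreteTopology L] [IsZLattice ℝ L] :
    ∃ d : ℝ, 0 < d ∧ ∀ S Sin Sout : Set E, Bornology.IsBounded S →
      (∀ x ∈ Sin, ∀ y, ‖y - x‖ ≤ d → y ∈ S) → (∀ x ∈ S, ∀ y, ‖y - x‖ ≤ d → y ∈ Sout) →
      μ Sin ≤ ENNReal.ofReal (ZLattice.covolume L μ) * (Nat.card ↥(S ∩ (L : Set E)) : ENNReal) ∧
      ENNReal.ofReal (ZLattice.covolume L μ) * (Nat.card ↥(S ∩ (L : Set E)) : ENNReal) ≤ μ Sout := by
  classical
  set b₀ := Module.Free.chooseBasis ℤ L with hb₀
  set b := b₀.ofZLatticeBasis ℝ L with hb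
  set D := ZSpan.fundamentalDomain b with hD
  have hspan : Submodule.span ℤ (Set.range b) = L := b₀.ofZLatticeBasis_span ℝ
  have hfd : IsAddFundamentalDomain L D μ := ZLattice.isAddFundamentalDomain b₀ μ
  have hDb : Bornology.IsBounded D := ZSpan.fundamentalDomain_isBounded b
  obtain ⟨d, hd0, hd⟩ := hDb.exists_pos_norm_le
  have hμD : μ D ≠ ⊤ := hDb.measure_lt_top.ne
  have hcov : ENNReal.ofReal (ZLattice.covolume L μ) = μ D := by
    rw [ZLattice.covolume_eq_measure_fundamentalDomain L μ hfd, Measure.real,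
      ENNReal.ofReal_toReal hμD]
  refine ⟨d, hd0, fun S Sin Sout hS hin hout => ?_⟩
  -- finiteness of `S ∩ L`
  have hclosed : IsClosed (L : Set E) := by
    have := AddSubgroup.isClosed_of_discrete (H := L.toAddSubgroup)
    exact this
  have hfin : (S ∩ (L : Set E)).Finite :=
    Metric.finite_isBounded_inter_isClosed DiscreteTopology.isDiscrete hS hclosed
  -- the finite set of lattice points as a finset in `L`
  have hfin' : {l : L | (l : E) ∈ S}.Finite := by
    refine Set.Finite.of_finite_image (f := fun l : L => (l : E)) (hfin.subset ?_)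
      (Subtype.val_injective.injOn)
    rintro _ ⟨l, hl, rfl⟩
    exact ⟨hl, l.2⟩
  set T : Finset L := hfin'.toFinset with hT
  have hmemT : ∀ l : L, l ∈ T ↔ (l : E) ∈ S := fun l => by simp [hT]
  have hcard : Nat.card ↥(S ∩ (L : Set E)) = T.card := by
    rw [← Nat.card_eq_finsetCard T]
    refine Nat.card_congr ⟨fun x => ⟨⟨x.1, x.2.2⟩, (hmemT _).2 x.2.1⟩,
      fun l => ⟨l.1.1, (hmemT _).1 l.2, l.1.2⟩, fun x => rfl, fun l => rfl⟩
  set U : Set E := ⋃ l ∈ T, (l +ᵥ D) with hU
  have hμU : μ U = μ D * (T.card : ENNReal) := by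
    have hDm : MeasurableSet D := ZSpan.fundamentalDomain_measurableSet b
    have hm : ∀ l : L, MeasurableSet (l +ᵥ D) := fun l => by
      show MeasurableSet ((l : E) +ᵥ D)
      exact hDm.const_vadd _
    have hμl : ∀ l : L, μ (l +ᵥ D) = μ D := fun l => by
      show μ ((l : E) +ᵥ D) = μ D
      exact measure_vadd μ _ _
    rw [hU, measure_biUnion_finset₀ (fun l _ l' _ hne => hfd.aedisjoint hne)
      (fun l _ => (hm l).nullMeasurableSet)]
    simp only [hμl, Finset.sum_const, nsmul_eq_mul, mul_comm]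
  rw [hcov, hcard, ← hμU]
  constructor
  · refine measure_mono fun x hx => ?_
    have hfl : ((ZSpan.floor b x : Submodule.span ℤ (Set.range b)) : E) ∈ L := by
      have := (ZSpan.floor b x).2
      exact hspan.le this
    have hfr : ZSpan.fract b x ∈ D := ZSpan.fract_mem_fundamentalDomain b x
    have hx' : x = (ZSpan.floor b x : E) + ZSpan.fract b x := by
      rw [ZSpan.fract_apply]; abel
    have hS' : (ZSpan.floor b x : E) ∈ S := by
      refine hin x hx _ ?_
      have : (ZSpan.floor b x : E) - x = - ZSpan.fract b x := by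
        rw [ZSpan.fract_apply]; abel
      rw [this, norm_neg]
      exact hd _ hfr
    refine Set.mem_biUnion (x := (⟨_, hfl⟩ : L)) ((hmemT _).2 hS') ?_
    exact ⟨ZSpan.fract b x, hfr, hx'.symm⟩
  · refine measure_mono fun x hx => ?_
    obtain ⟨l, hl, f, hf, rfl⟩ := Set.mem_iUnion₂.1 hx
    refine hout l ((hmemT l).1 hl) _ ?_
    have : ((l : E) + f) - (l : E) = f := by abel
    show ‖((l : E) + f) - (l : E)‖ ≤ d
    rw [this]
    exact hd _ hf

end Fermat.Agent.S14.AN
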