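import Fermat.Agent.S14.AN.Defs

set_option autoImplicit false

namespace Fermat.Agent.S14.AN

open NumberField IsDedekindDomain NumberField.mixedEmbedding NumberField.InfinitePlace
  NumberField.mixedEmbedding.fundamentalCone NumberField.Units NumberField.Units.dirichletUnitTheorem
  Filter Topology MeasureTheory
open scoped NumberField nonZeroDivisors

variable (F : Type) [Field F] [NumberField F]

namespace ShellVol

open ENNReal

theorem measurableSet_shellParam (a₁ a α β : ℝ) : MeasurableSet (shellParam F a₁ a α β) := by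
  refine MeasurableSet.univ_pi fun _ ↦ ?_
  split_ifs
  · exact measurableSet_Ioc
  · exact measurableSet_Ico

theorem lintegral_Ioc_exp {a₁ a : ℝ} (h : a₁ ≤ a) {n : ℝ} (hn : 0 < n) :
    ∫⁻ (x : ℝ) in Set.Ioc a₁ a, .ofReal (Real.exp (n * x)) =
      ENNReal.ofReal ((Real.exp (n * a) - Real.exp (n * a₁)) / n) := by
  have hint : IntervalIntegrable (fun x : ℝ => Real.exp (n * x)) volume a₁ a :=
    (by fun_prop : Continuous fun x : ℝ => Real.exp (n * x)).intervalIntegrable _ _
  rw [← ofReal_integral_eq_lintegral_ofReal ((intervalIntegrable_iff_integrableOn_Ioc_of_le h).mp hint)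
    (by filter_upwards with _ using Real.exp_nonneg _),
    ← intervalIntegral.integral_of_le h]
  congr 1
  rw [intervalIntegral.integral_comp_mul_left (fun x => Real.exp x) hn.ne', integral_exp]
  simp only [smul_eq_mul]
  field_simp

theorem setLIntegral_shellParam_exp {a₁ a α β : ℝ} (h : a₁ ≤ a) {n : ℕ} (hn : 0 < n) :
    ∫⁻ (x : realSpace F) in shellParam F a₁ a α β, .ofReal (Real.exp (x w₀ * n)) =
      ENNReal.ofReal ((Real.exp (n * a) - Real.exp (n * a₁)) / n) *
        ENNReal.ofReal (β - α) ^ rank F := by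
  classical
  have hn : 0 < (n : ℝ) := Nat.cast_pos.mpr hn
  rw [volume_pi, shellParam, Measure.restrict_pi_pi, lintegral_eq_lmarginal_univ 0,
    lmarginal_erase' _ (by fun_prop) (Finset.mem_univ w₀), if_pos rfl]
  simp_rw [Function.update_self, lmarginal, lintegral_const, Measure.pi_univ, if_neg
    (Finset.ne_of_mem_erase (Subtype.prop _)), Measure.restrict_apply_univ, Real.volume_Ico,
    Finset.prod_const, mul_comm _ (n : ℝ)]
  rw [lintegral_Ioc_exp h hn]
  congr 2
  simp [rank]

end ShellVol

open scoped Classical in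
theorem volume_shell {a₁ a α β : ℝ} (h : a₁ ≤ a) (h' : α ≤ β) :
    volume (shell F a₁ a α β) = ENNReal.ofReal (volC F *
      (Real.exp (Module.finrank ℚ F * a) - Real.exp (Module.finrank ℚ F * a₁)) *
        (β - α) ^ (rank F)) := by
  have hmeas : MeasurableSet (shell F a₁ a α β) :=
    MeasurableSet.preimage (MeasurableSet.image_of_continuousOn_injOn
      (ShellVol.measurableSet_shellParam F a₁ a α β) (continuous_expMapBasis F).continuousOn
      (injective_expMapBasis F).injOn) (continuous_normAtAllPlaces F).measurable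
  have hpre : normAtAllPlaces ⁻¹' (normAtAllPlaces '' shell F a₁ a α β) = shell F a₁ a α β := by
    unfold shell
    exact Set.preimage_image_preimage
  rw [volume_eq_two_pow_mul_two_pi_pow_mul_integral hpre hmeas, shell,
    normAtAllPlaces_image_preimage_expMapBasis,
    setLIntegral_expMapBasis_image (ShellVol.measurableSet_shellParam F a₁ a α β) (by fun_prop)]
  simp_rw [ENNReal.inv_mul_cancel_right
    (Finset.prod_ne_zero_iff.mpr fun _ _ ↦ ENNReal.ofReal_ne_zero_iff.mpr (expMapBasis_pos _ _))
    (ENNReal.prod_ne_top fun _ _ ↦ ENNReal.ofReal_ne_top)]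
  rw [ShellVol.setLIntegral_shellParam_exp F h Module.finrank_pos]
  have hn : (0 : ℝ) < (Module.finrank ℚ F : ℝ) := Nat.cast_pos.mpr Module.finrank_pos
  have hreg : 0 ≤ regulator F := (regulator_pos F).le
  have hexp : 0 ≤ Real.exp (Module.finrank ℚ F * a) - Real.exp (Module.finrank ℚ F * a₁) :=
    sub_nonneg.mpr (Real.exp_le_exp.mpr (mul_le_mul_of_nonneg_left h hn.le))
  have hβ : 0 ≤ β - α := sub_nonneg.mpr h'
  have e2 : (2 : ENNReal) = ENNReal.ofReal 2 := by simp
  have e2i : (2 : ENNReal)⁻¹ = ENNReal.ofReal (2⁻¹) := by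
    rw [ENNReal.ofReal_inv_of_pos zero_lt_two]; simp
  have en : ((Module.finrank ℚ F : ℕ) : ENNReal) = ENNReal.ofReal (Module.finrank ℚ F : ℝ) := by
    simp
  rw [e2i, e2, en, ← ENNReal.ofReal_pow zero_le_two, ← ENNReal.ofReal_pow (by positivity),
    ← ENNReal.ofReal_pow (by positivity), ← ENNReal.ofReal_pow hβ,
    ← ENNReal.ofReal_mul (by positivity), ← ENNReal.ofReal_mul (by positivity),
    ← ENNReal.ofReal_mul (by positivity), ← ENNReal.ofReal_mul (by positivity),
    ← ENNReal.ofReal_mul (by positivity), ← ENNReal.ofReal_mul (by positivity)]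
  congr 1
  unfold volC
  rw [mul_pow]
  field_simp
  rw [← mul_pow]
  norm_num

end Fermat.Agent.S14.AN
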